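/-
Cluster E' (helper3): S15 from its inputs (blueprint NOTES/blueprint-E-S15-v2.md, section 1).
Top assembly `s15_of_inputs` PROVED (helper13, file handed over by helper3): sorry-free.
-/
import Mathlib
import Fermat.Agent.E.S15.Interfaces
import Fermat.Agent.S18
import Fermat.Agent.Lib.Frobenius.Exists

set_option autoImplicit false
set_option linter.style.haveILetI false

noncomputable section

open ModularCurve AlgebraicCurve WeierstrassCurve WeierstrassCurve.Affine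

set_option synthInstance.maxHeartbeats 400000

namespace Fermat.Agent.ES15

local notation "Qb" => AlgebraicClosure ℚ
local notation "GQb" => (AlgebraicClosure ℚ ≃ₐ[ℚ] AlgebraicClosure ℚ)

/-! ### arithmetic -/

theorem not_dvd_pred_of_dvd_sq_sub_one {p ℓ : ℕ} (hp : p.Prime) (hp5 : 5 ≤ p) (hℓ : ℓ.Prime)
    (h : p ∣ ℓ ^ 2 - 1) : ¬ ℓ ∣ p - 1 := by
  intro hdiv
  have hℓ2 := hℓ.two_le
  have hle : ℓ ≤ p - 1 := Nat.le_of_dvd (by omega) hdiv
  have hfac : ℓ ^ 2 - 1 = (ℓ - 1) * (ℓ + 1) := by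
    have : ℓ ^ 2 = (ℓ - 1) * (ℓ + 1) + 1 := by
      obtain ⟨k, rfl⟩ : ∃ k, ℓ = k + 1 := ⟨ℓ - 1, by omega⟩
      simp only [Nat.add_sub_cancel]
      ring
    omega
  rw [hfac] at h
  rcases (Nat.Prime.dvd_mul hp).mp h with h1 | h1
  · have := Nat.le_of_dvd (by omega) h1
    omega
  · have h2 := Nat.le_of_dvd (by omega) h1
    have hℓp : ℓ = p - 1 := by omega
    have hodd : ¬ 2 ∣ p := by
      intro h2p
      have := (Nat.prime_dvd_prime_iff_eq Nat.prime_two hp).mp h2p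
      omega
    have h2ℓ : 2 ∣ ℓ := by
      rw [hℓp]
      omega
    have := (Nat.prime_dvd_prime_iff_eq Nat.prime_two hℓ).mp h2ℓ
    omega

/-! ### classes of differences of places -/

section Cls

variable {p : ℕ}

theorem single_sub_single_mem_degZero (h1 : ∀ P : Pl p, P.deg = 1) (P P' : Pl p) :
    (Finsupp.single P 1 - Finsupp.single P' 1 : Divisor Qb (modularFunctionFieldBar p)) ∈
      Divisor.degZero (K := Qb) (F := modularFunctionFieldBar p) := by
  rw [Divisor.mem_degZero, map_sub, Divisor.degree_single, Divisor.degree_single, h1, h1]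
  simp

theorem clsDiff_eq (h1 : ∀ P : Pl p, P.deg = 1) (P P' : Pl p) :
    clsDiff p P P' = Pic0.mk ⟨_, single_sub_single_mem_degZero h1 P P'⟩ := by
  unfold clsDiff clsOf
  rw [dif_pos (single_sub_single_mem_degZero h1 P P')]

theorem clsDiff_add (h1 : ∀ P : Pl p, P.deg = 1) (P P' P'' : Pl p) :
    clsDiff p P P' + clsDiff p P' P'' = clsDiff p P P'' := by
  rw [clsDiff_eq h1, clsDiff_eq h1, clsDiff_eq h1, ← Pic0.mk_add]
  congr 1
  apply Subtype.ext
  show (Finsupp.single P 1 - Finsupp.single P' 1 : Divisor Qb (modularFunctionFieldBar p)) +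
    (Finsupp.single P' 1 - Finsupp.single P'' 1) = Finsupp.single P 1 - Finsupp.single P'' 1
  abel

theorem smul_single_sub_single (g : SemilinearAut Qb (modularFunctionFieldBar p)) (P P' : Pl p) :
    g • (Finsupp.single P 1 - Finsupp.single P' 1 : Divisor Qb (modularFunctionFieldBar p)) =
      Finsupp.single (g • P) 1 - Finsupp.single (g • P') 1 := by
  rw [smul_sub, SemilinearAut.smul_single, SemilinearAut.smul_single]

theorem smul_clsDiff (h1 : ∀ P : Pl p, P.deg = 1) (σ : GQb) (P P' : Pl p) :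
    σ • clsDiff p P P' =
      clsDiff p (arithmeticGalois (modularFunctionFieldFull p) σ • P)
        (arithmeticGalois (modularFunctionFieldFull p) σ • P') := by
  rw [clsDiff_eq h1, clsDiff_eq h1]
  refine (galois_smul_pic0_def (modularFunctionFieldFull p) σ _).trans
    ((SemilinearAut.pic0_smul_mk _ _).trans (congrArg Pic0.mk (Subtype.ext ?_)))
  exact smul_single_sub_single _ P P'

theorem red_clsDiff {A : ValuationSubring Qb} (h : ReductionInputsModL A p)
    (h1 : ∀ P : Pl p, P.deg = 1) (P P' : Pl p)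
    (hr : placeReductionModL h P = placeReductionModL h P') :
    reductionModL A p (clsDiff p P P') = 0 := by
  rw [clsDiff_eq h1, reductionModL_mk h]
  have h0 : reductionDegZeroAlong (placeReductionModL h)
      (isPlaceReductionModL_placeReductionModL h).1
      ⟨_, single_sub_single_mem_degZero h1 P P'⟩ = 0 := by
    apply Subtype.ext
    rw [coe_reductionDegZeroAlong]
    show Finsupp.mapDomain (placeReductionModL h)
      (Finsupp.single P 1 - Finsupp.single P' 1 : Divisor Qb (modularFunctionFieldBar p)) = 0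
    rw [Finsupp.mapDomain_sub, Finsupp.mapDomain_single, Finsupp.mapDomain_single, hr, sub_self]
  rw [h0]
  rfl

end Cls

/-! ### Galois action -/

section Gal

variable {p : ℕ}

/-- the Galois action on places -/
abbrev gP (p : ℕ) (σ : GQb) (P : Pl p) : Pl p :=
  arithmeticGalois (modularFunctionFieldFull p) σ • P

theorem gal_jdB (N d : ℕ) [NeZero d] (hd : d ∣ N) (σ : GQb) :
    arithmeticGalois (modularFunctionFieldFull N) σ • jdB N d hd = jdB N d hd := by
  apply Subtype.ext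
  rw [coe_arithmeticGalois_smul]
  exact coeffMap_coeffEmb σ _

theorem valAt_gP_jdB (N d : ℕ) [NeZero d] (hd : d ∣ N) (σ : GQb) {x : Pl N} {a : ℚ}
    (h : ValAt x (jdB N d hd) (algebraMap ℚ Qb a)) :
    ValAt (gP N σ x) (jdB N d hd) (algebraMap ℚ Qb a) := by
  have h1 := Fermat.Agent.S17.Pts.congAt_smul (arithmeticGalois (modularFunctionFieldFull N) σ) h
  rw [gal_jdB, baseAut_arithmeticGalois] at h1
  have e : σ.toRingEquiv (algebraMap ℚ Qb a) = algebraMap ℚ Qb a := σ.commutes a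
  rw [e] at h1
  exact h1

theorem gP_cuspInf (σ : GQb) : gP p σ (cuspInf p) = cuspInf p :=
  Fermat.Agent.S17.Setup.galPlace_cuspPlace p σ

theorem isCuspZero_gP (σ : GQb) {P0 : Pl p} (h : IsCuspZero p P0) : IsCuspZero p (gP p σ P0) := by
  refine ⟨fun hc => h.1 ?_, ?_⟩
  · have h2 : gP p σ⁻¹ (gP p σ P0) = P0 := by
      show arithmeticGalois (modularFunctionFieldFull p) σ⁻¹ •
        (arithmeticGalois (modularFunctionFieldFull p) σ • P0) = P0
      rw [map_inv, inv_smul_smul]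
    rw [← h2, hc, gP_cuspInf]
  · have := Fermat.Agent.S17.Pts.ord_smul_of_fixed
      (arithmeticGalois (modularFunctionFieldFull p) σ) P0 (gal_jdB p 1 (one_dvd p) σ)
    show (gP p σ P0).ord (jB p) < 0
    unfold gP jB
    rw [this]
    exact h.2

end Gal

/-! ### the kernel of the reduction is stable under `ℤ[T_r : r ∉ S]` -/

theorem red_adjoin {p : ℕ} [NeZero p] (hF : HeckeRedStable p) (S : Finset ℕ)
    {ℓ : ℕ} (hℓ : ℓ.Prime) (hℓp : ℓ ≠ p) (hℓS : ℓ ∈ S) (hpS : p ∈ S)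
    (A : ValuationSubring Qb) (hA : A.LiesOverPrime ℓ)
    {t : Module.End ℤ (JZero p)} (ht : t ∈ Algebra.adjoin ℤ (heckeSet p S)) :
    ∀ z : JZero p, reductionModL A p z = 0 → reductionModL A p (t z) = 0 := by
  induction ht using Algebra.adjoin_induction with
  | mem T hT =>
    obtain ⟨r, hr, rfl⟩ := hT
    intro z hz
    exact hF ℓ hℓ hℓp A hA r (fun h => hr (h ▸ hℓS)) (fun h => hr (h ▸ hpS)) z hz
  | algebraMap n =>
    intro z hz
    rw [Module.algebraMap_end_apply, map_zsmul, hz, smul_zero]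
  | add T T' _ _ hT hT' =>
    intro z hz
    rw [LinearMap.add_apply, map_add, hT z hz, hT' z hz, add_zero]
  | mul T T' _ _ hT hT' =>
    intro z hz
    rw [Module.End.mul_apply]
    exact hT _ (hT' z hz)

/-- S18 for a torsion point whose reduction vanishes at two places of different residue
characteristics. -/
theorem eq_zero_of_red_two {p : ℕ} [NeZero p] {ℓ₁ ℓ₂ : ℕ} (h₁ : ℓ₁.Prime) (h₂ : ℓ₂.Prime)
    (h12 : ℓ₁ ≠ ℓ₂) (hp1 : ¬ ℓ₁ ∣ p) (hp2 : ¬ ℓ₂ ∣ p)
    (A₁ A₂ : ValuationSubring Qb) (hA₁ : A₁.LiesOverPrime ℓ₁) (hA₂ : A₂.LiesOverPrime ℓ₂)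
    (hR₁ : ReductionInputsModL A₁ p) (hR₂ : ReductionInputsModL A₂ p)
    (w : JZero p) (m : ℕ) (hm : 0 < m) (hmw : m • w = 0)
    (hw₁ : reductionModL A₁ p w = 0) (hw₂ : reductionModL A₂ p w = 0) : w = 0 := by
  haveI : Fact ℓ₁.Prime := ⟨h₁⟩
  haveI : Fact ℓ₂.Prime := ⟨h₂⟩
  obtain ⟨a, m', hm', rfl⟩ := Nat.exists_eq_pow_mul_and_not_dvd hm.ne' ℓ₁ h₁.ne_one
  -- `ℓ₁ ^ a • w` is killed by `m'`, prime to `ℓ₁`
  have hw1 : ℓ₁ ^ a • w = 0 := by
    refine Fermat.Agent.S18.result p hp1 A₁ hA₁ hR₁ m' hm' (ℓ₁ ^ a • w) ?_ ?_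
    · rw [← mul_smul, mul_comm]
      exact hmw
    · rw [map_nsmul, hw₁, smul_zero]
  refine Fermat.Agent.S18.result p hp2 A₂ hA₂ hR₂ (ℓ₁ ^ a) ?_ w hw1 hw₂
  intro hdvd
  have := (Nat.prime_dvd_prime_iff_eq h₂ h₁).1 (h₂.dvd_of_dvd_pow hdvd)
  exact h12 this.symm

/-- **S15 from its inputs.** -/
theorem s15_of_inputs {p : ℕ} [NeZero p] (hp : p.Prime) (hp' : p ∉ ({2, 3, 5, 7, 13} : Finset ℕ))
    (hD0 : CuspZeroData p) (hD2 : CuspTorsion p) (hB : RedInputs p) (hC : CuspReduction p)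
    (hF : HeckeRedStable p) (hEL : ZeroCompOrder p) (hMP : ModuliPoint p)
    (hE : EisensteinDescent p) : S15At p := by
  intro W hΔ Q hQfix hQord h2Δ h2c₄ h2 h3Δ h3c₄ h3 ℓ hℓ hℓp hℓΔ hℓc₄ A hA hin
  simp only [Finset.mem_insert, Finset.mem_singleton, not_or] at hp'
  obtain ⟨hp2, hp3, -, -, -⟩ := hp'
  have hp5 : 5 ≤ p := by
    have h2le := hp.two_le
    by_contra hcon
    have h4 : p ≠ 4 := fun h => by rw [h] at hp; exact (by decide : ¬ Nat.Prime 4) hp
    omega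
  have h1 := hD0.deg_one
  obtain ⟨a, b, x, hxa, hxb, hval⟩ := hMP W hΔ Q hQfix hQord
  obtain ⟨P0, hP0⟩ := hD0.ex
  -- the reduction at `A`
  have hRA := hB ℓ hℓ hℓp A hA
  have hr := isPlaceReductionModL_placeReductionModL hRA
  obtain ⟨haA, -, hvin⟩ := hval ℓ hℓ hℓp hℓΔ hℓc₄ A hA
  have hvA := hvin hin
  obtain ⟨hC1, -, hC3⟩ := hC ℓ hℓ hℓp A hA (placeReductionModL hRA) hr P0 hP0 _ _ x hxa hxb haA
  have hrx : placeReductionModL hRA x = placeReductionModL hRA (cuspInf p) := hC1 hvA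
  -- `x` and `P0` are Galois-fixed
  have hxfix : ∀ σ : GQb, gP p σ x = x := by
    intro σ
    have hxa' : ValAt (gP p σ x) (jB p) (algebraMap ℚ Qb a) := valAt_gP_jdB p 1 (one_dvd p) σ hxa
    have hxb' : ValAt (gP p σ x) (jpB p) (algebraMap ℚ Qb b) := valAt_gP_jdB p p dvd_rfl σ hxb
    obtain ⟨hC1', -, -⟩ :=
      hC ℓ hℓ hℓp A hA (placeReductionModL hRA) hr P0 hP0 _ _ (gP p σ x) hxa' hxb' haA
    exact hC3 hrx (gP p σ x) hxa' (hC1' hvA)
  have hP0fix : ∀ σ : GQb, gP p σ P0 = P0 := fun σ =>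
    hD0.uniq _ _ (isCuspZero_gP σ hP0) hP0
  have hzfix : ∀ σ : GQb, σ • clsDiff p x P0 = clsDiff p x P0 := by
    intro σ
    rw [smul_clsDiff h1]
    show clsDiff p (gP p σ x) (gP p σ P0) = _
    rw [hxfix, hP0fix]
  -- the Hecke element `t`
  obtain ⟨t, ht, htors, htc⟩ := hE ({2, 3, ℓ, p} : Finset ℕ)
  obtain ⟨m, hm, hmz⟩ := htors _ hzfix
  -- the places over `2` and `3`
  obtain ⟨A2, hA2⟩ := Fermat.Agent.FrobExists.exists_valuationSubring_liesOver 2 Nat.prime_two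
  obtain ⟨A3, hA3⟩ := Fermat.Agent.FrobExists.exists_valuationSubring_liesOver 3 Nat.prime_three
  have hR2 := hB 2 Nat.prime_two (Ne.symm hp2) A2 hA2
  have hR3 := hB 3 Nat.prime_three (Ne.symm hp3) A3 hA3
  have hz2 : reductionModL A2 p (clsDiff p x P0) = 0 := by
    obtain ⟨ha2, hv2, -⟩ := hval 2 Nat.prime_two (Ne.symm hp2) (by exact_mod_cast h2Δ)
      (by exact_mod_cast h2c₄) A2 hA2
    obtain ⟨-, hC2, -⟩ := hC 2 Nat.prime_two (Ne.symm hp2) A2 hA2 (placeReductionModL hR2)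
      (isPlaceReductionModL_placeReductionModL hR2) P0 hP0 _ _ x hxa hxb ha2
    exact red_clsDiff hR2 h1 x P0 (hC2 (hv2 (h2 A2 hA2)))
  have hz3 : reductionModL A3 p (clsDiff p x P0) = 0 := by
    obtain ⟨ha3, hv3, -⟩ := hval 3 Nat.prime_three (Ne.symm hp3) (by exact_mod_cast h3Δ)
      (by exact_mod_cast h3c₄) A3 hA3
    obtain ⟨-, hC2, -⟩ := hC 3 Nat.prime_three (Ne.symm hp3) A3 hA3 (placeReductionModL hR3)
      (isPlaceReductionModL_placeReductionModL hR3) P0 hP0 _ _ x hxa hxb ha3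
    exact red_clsDiff hR3 h1 x P0 (hC2 (hv3 (h3 A3 hA3)))
  -- `w = t z = 0`
  have hw2 : reductionModL A2 p (t (clsDiff p x P0)) = 0 :=
    red_adjoin hF _ Nat.prime_two (Ne.symm hp2) (by simp) (by simp) A2 hA2 ht _ hz2
  have hw3 : reductionModL A3 p (t (clsDiff p x P0)) = 0 :=
    red_adjoin hF _ Nat.prime_three (Ne.symm hp3) (by simp) (by simp) A3 hA3 ht _ hz3
  have hnd : ∀ {q : ℕ}, q.Prime → q ≠ p → ¬ q ∣ p := fun hq hqp h =>
    hqp ((Nat.prime_dvd_prime_iff_eq hq hp).1 h)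
  have hw : t (clsDiff p x P0) = 0 :=
    eq_zero_of_red_two Nat.prime_two Nat.prime_three (by norm_num)
      (hnd Nat.prime_two (Ne.symm hp2)) (hnd Nat.prime_three (Ne.symm hp3))
      A2 A3 hA2 hA3 hR2 hR3 _ m hm hmz hw2 hw3
  -- at `A`
  have hzc : reductionModL A p (clsDiff p x P0 + cuspClass p P0) = 0 := by
    unfold cuspClass
    rw [clsDiff_add h1]
    exact red_clsDiff hRA h1 x (cuspInf p) hrx
  have htzc := red_adjoin hF _ hℓ hℓp (by simp) (by simp) A hA ht _ hzc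
  rw [map_add, hw, zero_add] at htzc
  have hpc : (p - 1) • t (cuspClass p P0) = 0 := by
    rw [← map_nsmul, hD2 P0 hP0, map_zero]
  have hdvd : p ∣ ℓ ^ 2 - 1 := hEL W Q hQfix hQord ℓ hℓ hℓp hℓΔ hℓc₄ A hA hin
  have hnot : ¬ ℓ ∣ p - 1 := not_dvd_pred_of_dvd_sq_sub_one hp hp5 hℓ hdvd
  haveI : Fact ℓ.Prime := ⟨hℓ⟩
  exact htc P0 hP0
    (Fermat.Agent.S18.result p (hnd hℓ hℓp) A hA hRA (p - 1) hnot _ hpc htzc)

end Fermat.Agent.ES15
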