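import Mathlib
import Fermat.Agent.E.S15.CuspOrd
import Fermat.Agent.E.S15.CuspCore
import Fermat.Agent.E.S15.Assembly
import Fermat.Agent.Lib.BadRed.Mod.UCuspDegFinal
import Fermat.Agent.Lib.RR.OfModularBar
import Fermat.Agent.Lib.RR.Basic

/-!
# Cluster E' / S15-D (helper98): the cusps of `X₀(p)` and the cuspidal class

`p` prime, `u = Δ(z)/Δ(pz) ∈ F_p` (`uF p p _`), `∞ = cuspInf p`.

* `ord_cuspInf_uF`   : `ord_∞ u = -(p - 1)`;
* `poleDiv_uF_prime` : `(u)_∞ = (p - 1) (∞)`;
* `exists_cuspZero_div` : there is a place `P0` with `div u = (p - 1) ((P0) - (∞))`;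
* `isCuspZero_iff`   : `IsCuspZero p P ↔ P = P0`, `ord_{P0} j = -p`, `ord_∞ j = -1`;
* **`cuspZeroData p : CuspZeroData p`**  (seat D0 of `Interfaces.lean`);
* **`cuspTorsion p : CuspTorsion p`**    (seat D2): `(p - 1) • cl((0) - (∞)) = 0`.

Inputs: the modular equation of `u` over `ℚ̄(j)` (cluster T, MA3 + MA4: helper47, helper84,
helper16) and `ord_cuspPlace` (`CuspOrd.lean`).
-/

set_option autoImplicit false
set_option linter.unusedSectionVars false
set_option linter.style.haveILetI false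

noncomputable section

open AlgebraicCurve ModularCurve Fermat.Agent.RR Fermat.Agent.BadRed

set_option synthInstance.maxHeartbeats 400000

namespace Fermat.Agent.ES15

local notation "Qb" => AlgebraicClosure ℚ

/-- the order of the series `u`. -/
lemma order_uSer' (K : Type*) [Field K] (q : ℕ) : (uSer K q).order = -((q : ℤ) - 1) := by
  have h1 : (uSer K q).coeff (-((q : ℤ) - 1)) = 1 := coeff_uSer_self K q
  have hne : uSer K q ≠ 0 := uSer_ne_zero K q
  apply le_antisymm
  · apply HahnSeries.order_le_of_coeff_ne_zero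
    rw [h1]
    exact one_ne_zero
  · by_contra hlt
    rw [not_le] at hlt
    exact hne (HahnSeries.coeff_order_eq_zero.mp (coeff_uSer_of_lt K q hlt))

variable (p : ℕ) [NeZero p]

/-- `jB p` of the interface is `jBar p`. -/
lemma jB_eq_jBar : jB p = Fermat.Agent.S24.jBar p := by
  apply Subtype.ext
  show coeffEmb Qb (qExpand ℚ 1 jq) = coeffEmb Qb jq
  rw [qExpand_one_apply]

/-- `ord_∞ u = -(p - 1)`. -/
theorem ord_cuspInf_uF : (cuspInf p).ord (uF p p dvd_rfl) = -((p : ℤ) - 1) := by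
  rw [Fermat.Agent.ED.ord_cuspPlace p (uF_ne_zero p p dvd_rfl), coe_uF, order_uSer']

/-- `ord_∞ j = -1`. -/
theorem ord_cuspInf_jB : (cuspInf p).ord (jB p) = -1 := by
  rw [jB_eq_jBar]
  exact Fermat.Agent.ED.ord_cuspPlace_jBar p

variable {p}

/-- `(u)_∞ = (p - 1) (∞)`. -/
theorem poleDiv_uF_prime (hp : p.Prime) :
    poleDiv (Fermat.Agent.RRMod.isRRField_bar p) (uF p p dvd_rfl) =
      Finsupp.single (cuspInf p) ((p : ℤ) - 1) := by
  have hRR := Fermat.Agent.RRMod.isRRField_bar p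
  have hp1 : 1 ≤ p := hp.one_le
  symm
  apply eq_of_le_of_degree_eq_aux hRR
  · rw [Finsupp.le_def]
    intro v
    by_cases hv : v = cuspInf p
    · subst hv
      rw [Finsupp.single_eq_same, poleDiv_apply, ord_cuspInf_uF]
      exact le_max_of_le_left (by omega)
    · rw [Finsupp.single_eq_of_ne hv, poleDiv_apply]
      exact le_max_right _ _
  · rw [degree_single_one hRR,
      degree_poleDiv_uF (N₀ := 1) hp (mul_one p).symm (by
        intro h
        exact hp.one_lt.ne' (Nat.dvd_one.mp h)) dvd_rfl]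
    rw [dedekindPsi_one, mul_one]
    omega

/-- the zero divisor of `u`. -/
theorem exists_cuspZero_div (hp : p.Prime) :
    ∃ P0 : Pl p, P0 ≠ cuspInf p ∧ P0.ord (uF p p dvd_rfl) = (p : ℤ) - 1 ∧
      P0.ord (jB p) = -(p : ℤ) ∧
      ∀ v : Pl p, v ≠ cuspInf p → v ≠ P0 → v.ord (uF p p dvd_rfl) = 0 := by
  have hRR := Fermat.Agent.RRMod.isRRField_bar p
  have hp1 : 1 ≤ p := hp.one_le
  have hp2 : 2 ≤ p := hp.two_le
  have hE := uCuspEq_uF_prime (N := p) hp dvd_rfl
  set u := uF p p dvd_rfl with hu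
  have hu0 : u ≠ 0 := uF_ne_zero p p dvd_rfl
  have hinv0 : u⁻¹ ≠ 0 := inv_ne_zero hu0
  -- `div u = (u⁻¹)_∞ - (u)_∞`
  have hdiv : divOf hRR u = poleDiv hRR u⁻¹ - poleDiv hRR u := by
    ext v
    rw [Finsupp.sub_apply, divOf_apply, poleDiv_apply, poleDiv_apply, Place.ord_inv, neg_neg]
    rcases le_total (v.ord u) 0 with h | h
    · rw [max_eq_right h, max_eq_left (by omega)]
      omega
    · rw [max_eq_left h, max_eq_right (by omega)]
      omega
  have hdegZ : Divisor.degree (poleDiv hRR u⁻¹) = (p : ℤ) - 1 := by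
    have h1 := congrArg Divisor.degree hdiv
    rw [degree_divOf, map_sub, poleDiv_uF_prime hp, degree_single_one hRR] at h1
    linarith
  -- a zero exists
  have hZne : poleDiv hRR u⁻¹ ≠ 0 := by
    intro h0
    rw [h0, map_zero] at hdegZ
    omega
  obtain ⟨P0, hP0⟩ := Finsupp.support_nonempty_iff.mpr hZne
  have hP0neg : P0.ord u⁻¹ < 0 := (support_poleDiv hRR u⁻¹ P0).mp hP0
  have hP0pos : 0 < P0.ord u := by
    rw [Place.ord_inv] at hP0neg
    omega
  obtain ⟨hj0, hrel⟩ := hE.ord_eq_of_pos P0 hP0pos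
  -- `(p - 1) ∣ ord u`
  have hdvd : ((p : ℤ) - 1) ∣ P0.ord u := by
    have h1 : ((p : ℤ) - 1) ∣ (p : ℤ) * P0.ord u := ⟨-(P0.ord (Fermat.Agent.S24.jBar p)), by
      rw [hrel]; ring⟩
    have hcop : IsCoprime ((p : ℤ) - 1) (p : ℤ) := ⟨-1, 1, by ring⟩
    exact hcop.dvd_of_dvd_mul_left h1
  have hge : (p : ℤ) - 1 ≤ P0.ord u := Int.le_of_dvd hP0pos hdvd
  -- the zero divisor is `(p - 1) (P0)`
  have hZ : Finsupp.single P0 ((p : ℤ) - 1) = poleDiv hRR u⁻¹ := by
    apply eq_of_le_of_degree_eq_aux hRR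
    · rw [Finsupp.le_def]
      intro v
      by_cases hv : v = P0
      · subst hv
        rw [Finsupp.single_eq_same, poleDiv_apply, Place.ord_inv, neg_neg]
        exact le_max_of_le_left hge
      · rw [Finsupp.single_eq_of_ne hv, poleDiv_apply]
        exact le_max_right _ _
    · rw [degree_single_one hRR, hdegZ]
  have hordP0 : P0.ord u = (p : ℤ) - 1 := by
    have h1 := congrArg (fun D : Divisor Qb (modularFunctionFieldBar p) => D P0) hZ
    simp only [Finsupp.single_eq_same, poleDiv_apply, Place.ord_inv, neg_neg] at h1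
    rw [max_eq_left hP0pos.le] at h1
    exact h1.symm
  have hne : P0 ≠ cuspInf p := by
    intro h
    have h2 : (cuspInf p).ord u = -((p : ℤ) - 1) := ord_cuspInf_uF p
    rw [← h] at h2
    omega
  refine ⟨P0, hne, hordP0, ?_, ?_⟩
  · rw [jB_eq_jBar]
    rw [hordP0] at hrel
    have hp' : ((p : ℤ) - 1) ≠ 0 := by omega
    have h3 : ((p : ℤ) - 1) * (p : ℤ) = ((p : ℤ) - 1) * (-(P0.ord (Fermat.Agent.S24.jBar p))) := by
      linarith
    have h4 := mul_left_cancel₀ hp' h3
    omega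
  · intro v hv hv0
    have h1 := congrArg (fun D : Divisor Qb (modularFunctionFieldBar p) => D v) hdiv
    simp only [Finsupp.sub_apply, divOf_apply] at h1
    rw [← hZ, poleDiv_uF_prime hp, Finsupp.single_eq_of_ne hv0, Finsupp.single_eq_of_ne hv] at h1
    simpa using h1

/-- a cusp `0` is the zero of `u`. -/
theorem isCuspZero_iff_of (hp : p.Prime) {P0 : Pl p} (hne : P0 ≠ cuspInf p)
    (hj : P0.ord (jB p) < 0)
    (hz : ∀ v : Pl p, v ≠ cuspInf p → v ≠ P0 → v.ord (uF p p dvd_rfl) = 0) (P : Pl p) :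
    IsCuspZero p P ↔ P = P0 := by
  constructor
  · rintro ⟨h1, h2⟩
    by_contra h3
    rw [jB_eq_jBar] at h2
    exact (ord_jBar_neg_iff_uF hp dvd_rfl P).mp h2 (hz P h1 h3)
  · rintro rfl
    exact ⟨hne, hj⟩

/-- **(D0)** the cusp `0` of `X₀(p)` exists and is unique; all places have degree one. -/
theorem cuspZeroData (hp : p.Prime) : CuspZeroData p := by
  obtain ⟨P0, hne, -, hj, hz⟩ := exists_cuspZero_div hp
  have hp1 : 1 ≤ p := hp.one_le
  have hj' : P0.ord (jB p) < 0 := by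
    rw [hj]
    omega
  refine ⟨⟨P0, hne, hj'⟩, ?_, (Fermat.Agent.RRMod.isRRField_bar p).deg_one⟩
  intro P P' hP hP'
  rw [(isCuspZero_iff_of hp hne hj' hz P).mp hP, (isCuspZero_iff_of hp hne hj' hz P').mp hP']

/-- the divisor of `u` is `(p - 1) ((0) - (∞))`. -/
theorem ord_uF_eq (hp : p.Prime) {P0 : Pl p} (h0 : IsCuspZero p P0) (v : Pl p) :
    v.ord (uF p p dvd_rfl) =
      ((p - 1 : ℕ) • (Finsupp.single P0 1 - Finsupp.single (cuspInf p) 1 :
        Divisor Qb (modularFunctionFieldBar p))) v := by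
  obtain ⟨P1, hne, hu, hj, hz⟩ := exists_cuspZero_div hp
  have hp1 : 1 ≤ p := hp.one_le
  have hj' : P1.ord (jB p) < 0 := by
    rw [hj]
    omega
  obtain rfl := (isCuspZero_iff_of hp hne hj' hz P0).mp h0
  have hcast : ((p - 1 : ℕ) : ℤ) = (p : ℤ) - 1 := by omega
  rw [Finsupp.smul_apply, Finsupp.sub_apply, nsmul_eq_mul, hcast]
  by_cases hv : v = cuspInf p
  · subst hv
    rw [Finsupp.single_eq_same, Finsupp.single_eq_of_ne (Ne.symm hne), ord_cuspInf_uF]
    ring
  · by_cases hv0 : v = P0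
    · subst hv0
      rw [Finsupp.single_eq_same, Finsupp.single_eq_of_ne hv, hu]
      ring
    · rw [Finsupp.single_eq_of_ne hv, Finsupp.single_eq_of_ne hv0, hz v hv hv0]
      ring

/-- **(D2)** `(p - 1) • cl((0) - (∞)) = 0`. -/
theorem cuspTorsion (hp : p.Prime) : CuspTorsion p := by
  intro P0 h0
  have h1 := (Fermat.Agent.RRMod.isRRField_bar p).deg_one
  unfold cuspClass
  rw [clsDiff_eq h1]
  have hmem : (p - 1) • (⟨_, single_sub_single_mem_degZero h1 P0 (cuspInf p)⟩ :
      Divisor.degZero (K := Qb) (F := modularFunctionFieldBar p)) ∈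
      (Divisor.principal (K := Qb) (F := modularFunctionFieldBar p)).addSubgroupOf
        (Divisor.degZero (K := Qb) (F := modularFunctionFieldBar p)) := by
    rw [AddSubgroup.mem_addSubgroupOf, AddSubgroup.coe_nsmul]
    exact ⟨uF p p dvd_rfl, uF_ne_zero p p dvd_rfl, fun v => (ord_uF_eq hp h0 v).symm⟩
  have h2 := (QuotientAddGroup.eq_zero_iff _).mpr hmem
  rw [QuotientAddGroup.mk_nsmul] at h2
  exact h2

end Fermat.Agent.ES15
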