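/-
Cluster E' (S15), helper52: the CHOICE of the Eisenstein prime `l'`.

The descent is run at ONE prime `l' ∣ ord(c)`, `c` the cuspidal class.  The route for `l' = 2`
(REAL place, E/Desc/FlatAsm2) needs `p ≡ 1 mod 8` (`ℚ(√p)` split at `2`).  From
`ord c ∣ p - 1` and `p - 1 ∣ 12 ord c` (E/S15/CuspOrder.lean): either `ord c` has an ODD prime
divisor, or `ord c` is a power of `2` and then `p - 1 ∣ 3 · 2^k`, which forces `8 ∣ p - 1`
for `p ∉ {2, 3, 5, 7, 13}`.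

* `exists_eis_prime_arith` : the arithmetic statement;
* `exists_eis_prime` : there is a prime `l' ∣ ord c`, `l' ≠ p`, with `l' = 2 → p % 8 = 1`.
-/
import Mathlib
import Fermat.Agent.E.S15.CuspOrder

set_option autoImplicit false

namespace Fermat.Agent.ES15

/-- if `8 ∤ m` and `m ∣ 3 · 2 ^ k` then `m ∣ 12`. -/
theorem dvd_twelve_of_dvd_three_mul_two_pow {m k : ℕ} (h8 : ¬ 8 ∣ m) (hm : m ∣ 3 * 2 ^ k) :
    m ∣ 12 := by
  have hm0 : m ≠ 0 := by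
    rintro rfl
    exact h8 (dvd_zero 8)
  -- the `2`-part of `m`
  obtain ⟨j, hj, hg⟩ := (Nat.dvd_prime_pow Nat.prime_two).1 (Nat.gcd_dvd_right m (2 ^ k))
  have hgm : 2 ^ j ∣ m := hg ▸ Nat.gcd_dvd_left m (2 ^ k)
  have hj2 : j ≤ 2 := by
    by_contra hcon
    have h3 : 3 ≤ j := by omega
    exact h8 ((pow_dvd_pow 2 h3).trans hgm)
  have hg4 : 2 ^ j ∣ 4 := by
    have : (4 : ℕ) = 2 ^ 2 := by norm_num
    rw [this]
    exact pow_dvd_pow 2 hj2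
  have hgpos : 0 < Nat.gcd m (2 ^ k) := Nat.gcd_pos_of_pos_left _ (Nat.pos_of_ne_zero hm0)
  obtain ⟨a, b, hab, hma, hkb⟩ := Nat.exists_coprime m (2 ^ k)
  -- `m = a g`, `2 ^ k = b g`, `a ∣ 3 b`, so `a ∣ 3`
  have h1 : a * Nat.gcd m (2 ^ k) ∣ 3 * (b * Nat.gcd m (2 ^ k)) := by
    rw [← hma, ← hkb]
    exact hm
  have h2 : a ∣ 3 * b := by
    have h3 : a * Nat.gcd m (2 ^ k) ∣ (3 * b) * Nat.gcd m (2 ^ k) := by
      rw [mul_assoc]
      exact h1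
    exact (Nat.mul_dvd_mul_iff_right hgpos).1 h3
  have h3 : a ∣ 3 := (Nat.Coprime.dvd_mul_right hab).1 h2
  have h12 : (12 : ℕ) = 3 * 4 := by norm_num
  rw [hma, h12]
  exact Nat.mul_dvd_mul h3 (hg ▸ hg4)

/-- **choice of the Eisenstein prime, arithmetic form.** -/
theorem exists_eis_prime_arith {p o : ℕ} (hp : p.Prime) (h12 : ¬ (p - 1) ∣ 12)
    (ho1 : o ∣ p - 1) (ho2 : p - 1 ∣ 12 * o) :
    ∃ l' : ℕ, l'.Prime ∧ l' ∣ o ∧ l' ≠ p ∧ (l' = 2 → p % 8 = 1) := by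
  have hp2 := hp.two_le
  have hne : ∀ l' : ℕ, l' ∣ o → l' ≠ p := by
    intro l' hl' h
    have h1 : l' ∣ p - 1 := hl'.trans ho1
    have h2 : l' ≤ p - 1 := Nat.le_of_dvd (by omega) h1
    omega
  rcases Nat.eq_two_pow_or_exists_odd_prime_and_dvd o with ⟨k, hk⟩ | ⟨l', hl', hdvd, hodd⟩
  · -- `o = 2 ^ k`
    have hk0 : k ≠ 0 := by
      rintro rfl
      rw [pow_zero] at hk
      rw [hk, mul_one] at ho2
      exact h12 ho2
    have h2o : 2 ∣ o := by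
      rw [hk]
      exact dvd_pow_self 2 hk0
    refine ⟨2, Nat.prime_two, h2o, hne 2 h2o, fun _ => ?_⟩
    have h8 : 8 ∣ p - 1 := by
      by_contra hcon
      apply h12
      refine dvd_twelve_of_dvd_three_mul_two_pow (k := k + 2) hcon ?_
      have e : 3 * 2 ^ (k + 2) = 12 * o := by
        rw [hk, pow_add]
        ring
      rw [e]
      exact ho2
    obtain ⟨c, hc⟩ := h8
    omega
  · refine ⟨l', hl', hdvd, hne l' hdvd, fun h => ?_⟩
    rw [h] at hodd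
    exact absurd hodd (by decide)

variable {p : ℕ} [NeZero p]

/-- **choice of the Eisenstein prime**: a prime `l' ∣ ord c`, `l' ≠ p`, which is odd unless
`p ≡ 1 mod 8`. -/
theorem exists_eis_prime (hp : p.Prime) (h2 : p ≠ 2) (h3 : p ≠ 3) (h5 : p ≠ 5) (h7 : p ≠ 7)
    (h13 : p ≠ 13) {P0 : Pl p} (h0 : IsCuspZero p P0) :
    ∃ l' : ℕ, l'.Prime ∧ l' ∣ addOrderOf (cuspClass p P0) ∧ l' ≠ p ∧ (l' = 2 → p % 8 = 1) :=
  exists_eis_prime_arith hp (not_pred_dvd_twelve hp h2 h3 h5 h7 h13)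
    (addOrderOf_cuspClass_dvd hp h0) (dvd_twelve_mul_addOrderOf hp h0)

end Fermat.Agent.ES15
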