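/-
Cluster E' (S15), seat S15-D2 (helper27), unconditional form:
`T_r c = (1 + r) c` for every prime `r ≠ p` on `X₀(p)`, `p` prime
(`CuspHecke.lean` + helper98's `cuspZeroData`, `CuspDiv.lean`).
-/
import Mathlib
import Fermat.Agent.E.S15.CuspHecke
import Fermat.Agent.E.S15.CuspDiv

set_option autoImplicit false

noncomputable section

open ModularCurve AlgebraicCurve

set_option synthInstance.maxHeartbeats 400000

namespace Fermat.Agent.ES15

/-- **(D, Hecke part)** `T_r c = (1 + r) c` on the cuspidal class `c = cl((0) - (∞))` of `X₀(p)`,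
for all primes `p` and `r ≠ p`. -/
theorem cuspHecke {p : ℕ} [NeZero p] (hp : p.Prime) (r : Nat.Primes) (hrp : (r : ℕ) ≠ p)
    (P0 : Pl p) (hP0 : IsCuspZero p P0) :
    heckeOperatorBar p r (cuspClass p P0) = (1 + (r : ℕ)) • cuspClass p P0 :=
  heckeOperatorBar_cuspClass hp (cuspZeroData hp) r hrp P0 hP0

/-- polynomial form: every `t ∈ ℤ[T_r : r ∉ S]` (`p ∈ S`) acts on `c` through `T_r ↦ 1 + r`:
the cuspidal class spans a stable line. -/
theorem cuspHecke_adjoin {p : ℕ} [NeZero p] (hp : p.Prime) (S : Finset ℕ) (hpS : p ∈ S)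
    (P0 : Pl p) (hP0 : IsCuspZero p P0) (t : Module.End ℤ (JZero p))
    (ht : t ∈ Algebra.adjoin ℤ (heckeSet p S)) :
    ∃ m : ℤ, t (cuspClass p P0) = m • cuspClass p P0 := by
  induction ht using Algebra.adjoin_induction with
  | mem x hx =>
    obtain ⟨r, hrS, rfl⟩ := hx
    have hrp : (r : ℕ) ≠ p := fun h => hrS (h ▸ hpS)
    refine ⟨((1 + (r : ℕ) : ℕ) : ℤ), ?_⟩
    rw [cuspHecke hp r hrp P0 hP0, natCast_zsmul]
  | algebraMap a =>
    refine ⟨a, ?_⟩
    rw [Algebra.algebraMap_eq_smul_one, LinearMap.smul_apply, Module.End.one_apply]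
  | add x y _ _ hx hy =>
    obtain ⟨m, hm⟩ := hx
    obtain ⟨n, hn⟩ := hy
    exact ⟨m + n, by rw [LinearMap.add_apply, hm, hn]; exact (add_smul m n _).symm⟩
  | mul x y _ _ hx hy =>
    obtain ⟨m, hm⟩ := hx
    obtain ⟨n, hn⟩ := hy
    refine ⟨n * m, ?_⟩
    rw [Module.End.mul_apply, hn, map_zsmul, hm, smul_smul]

end Fermat.Agent.ES15
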