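import Mathlib
import Fermat.Agent.E.S15.CuspDiv
import Fermat.Agent.Lib.BadRed.Mod.UParamW
import Fermat.Agent.Lib.BadRed.AtkinLehner

/-!
# Cluster E' / S15-D (helper98): the dual modular equation and the divisor of `j_p`

* `ucMap`, `ucOfMap` : the modular equation `UCuspEq K q j u` is
  transported by homomorphisms of `K`-algebras (fields);
* `uCuspEq_dual_AL D` : at level `N = Q R`, `Q` prime: `UCuspEq ℚ̄ Q j_Q (Q¹² / u)`
  (apply the Atkin–Lehner involution `w_Q` to the modular equation of `u` over `ℚ̄(j)`);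
* `uCuspEq_ser q`, `uCuspEq_ser_dual q` : the two equations in `ℚ̄((t))`, for every prime `q`;
* `ucDualOrd` : the bookkeeping at a place `v`: either `v` is no pole of `j`, `j'`
  and `ord u = 0`; or `ord u < 0`, `ord j' = q ord j`; or `ord u > 0`, `ord j = q ord j'`;
* level `p`: `ord_cuspInf_jpB : ord_∞ j_p = -p`, `ord_cuspZero_jpB : ord_0 j_p = -1`,
  `ord_jpB_neg_iff : ord_v j_p < 0 ↔ ord_v j < 0`.
-/

set_option autoImplicit false
set_option linter.unusedSectionVars false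
set_option linter.style.haveILetI false

noncomputable section

open AlgebraicCurve ModularCurve Polynomial Fermat.Agent.RR Fermat.Agent.BadRed
  Fermat.Agent.AtkinLehner

set_option synthInstance.maxHeartbeats 400000

namespace Fermat.Agent.ES15

local notation "Qb" => AlgebraicClosure ℚ

section Abstract

variable {K F F' : Type*} [Field K] [Field F] [Field F'] [Algebra K F] [Algebra K F']

/-- the modular equation is transported by algebra homomorphisms. -/
theorem ucMap {q : ℕ} {j u : F} (h : UCuspEq K q j u) (φ : F →ₐ[K] F') :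
    UCuspEq K q (φ j) (φ u) := by
  obtain ⟨c, hc0, hcq, hci, hroot⟩ := h.exists_coeff
  refine ⟨h.two_le, c, hc0, hcq, hci, ?_⟩
  have h1 := congrArg φ hroot
  rw [map_add, map_pow, map_sum, map_zero] at h1
  refine Eq.trans ?_ h1
  congr 1
  refine Finset.sum_congr rfl fun i _ => ?_
  rw [map_mul, map_pow, Polynomial.aeval_algHom_apply]

/-- the modular equation descends along (injective) algebra homomorphisms of fields. -/
theorem ucOfMap {q : ℕ} {j u : F} (φ : F →ₐ[K] F')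
    (h : UCuspEq K q (φ j) (φ u)) : UCuspEq K q j u := by
  obtain ⟨c, hc0, hcq, hci, hroot⟩ := h.exists_coeff
  refine ⟨h.two_le, c, hc0, hcq, hci, ?_⟩
  have hinj : Function.Injective φ := φ.toRingHom.injective
  apply hinj
  rw [map_add, map_pow, map_sum, map_zero]
  refine Eq.trans ?_ hroot
  congr 1
  refine Finset.sum_congr rfl fun i _ => ?_
  rw [map_mul, map_pow, Polynomial.aeval_algHom_apply]

/-- the order of `c / u`. -/
lemma ord_const_mul_inv (v : Place K F) {c : K} (hc : c ≠ 0) (u : F) :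
    v.ord (algebraMap K F c * u⁻¹) = -v.ord u := by
  rcases eq_or_ne u 0 with rfl | hu
  · simp
  have hc' : algebraMap K F c ≠ 0 := by
    rwa [ne_eq, map_eq_zero_iff _ (algebraMap K F).injective]
  rw [Place.ord_mul _ hc' (inv_ne_zero hu), Place.ord_inv, Fermat.Agent.S24Res.ord_algebraMap,
    zero_add]

/-- **bookkeeping at a place** for the pair of modular equations of `(j, u)` and
`(j', c / u)`. -/
theorem ucDualOrd {q : ℕ} {j j' u : F} {c : K} (hc : c ≠ 0) (h : UCuspEq K q j u)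
    (h' : UCuspEq K q j' (algebraMap K F c * u⁻¹)) (v : Place K F) :
    (0 ≤ v.ord j ∧ 0 ≤ v.ord j' ∧ v.ord u = 0) ∨
      (v.ord u < 0 ∧ v.ord j < 0 ∧ v.ord j' = (q : ℤ) * v.ord j ∧
        v.ord u = ((q : ℤ) - 1) * v.ord j) ∨
      (0 < v.ord u ∧ v.ord j' < 0 ∧ v.ord j = (q : ℤ) * v.ord j' ∧
        v.ord u = -(((q : ℤ) - 1) * v.ord j')) := by
  have hq := h.two_le
  have hq1 : ((q : ℤ) - 1) ≠ 0 := by omega
  have hinv := ord_const_mul_inv v hc u
  rcases lt_or_ge (v.ord j) 0 with hj | hj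
  · rcases h.ord_of_pole v hj with ⟨h1, h2⟩ | ⟨h1, h2⟩
    · right; left
      have h3 : 0 < v.ord (algebraMap K F c * u⁻¹) := by rw [hinv]; omega
      obtain ⟨h4, h5⟩ := h'.ord_eq_of_pos v h3
      rw [hinv, h1] at h5
      refine ⟨h2, hj, ?_, h1⟩
      have h6 : ((q : ℤ) - 1) * v.ord j' = ((q : ℤ) - 1) * ((q : ℤ) * v.ord j) := by
        linarith
      exact mul_left_cancel₀ hq1 h6
    · right; right
      have h3 : v.ord (algebraMap K F c * u⁻¹) < 0 := by rw [hinv]; omega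
      obtain ⟨h4, h5⟩ := h'.ord_eq_of_neg v h3
      rw [hinv] at h5
      refine ⟨h2, h4, ?_, by linarith⟩
      have h6 : ((q : ℤ) - 1) * v.ord j = ((q : ℤ) - 1) * ((q : ℤ) * v.ord j') := by
        have : (q : ℤ) * v.ord u = -(((q : ℤ) - 1) * v.ord j) := h1
        have h7 : (q : ℤ) * (-(v.ord u)) = (q : ℤ) * (((q : ℤ) - 1) * v.ord j') := by
          rw [h5]
        linarith
      exact mul_left_cancel₀ hq1 h6
  · left
    have h1 := h.ord_eq_zero_of_nonneg v hj
    refine ⟨hj, ?_, h1⟩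
    by_contra hj'
    have h2 := (h'.ord_j_neg_iff v).mp (not_le.mp hj')
    rw [hinv, h1] at h2
    exact h2 rfl

end Abstract

section AL

/-- `jF N 1 = jBar N`. -/
lemma jF_one_eq_jBar (N : ℕ) [NeZero N] :
    jF N 1 (one_dvd N) = Fermat.Agent.S24.jBar N := by
  apply Subtype.ext
  rw [coe_jF, Fermat.Agent.S24.coe_jBar_eq_jqModC, qExpand_one_apply]

/-- **the dual modular equation** at level `N = Q R`: `UCuspEq ℚ̄ Q j_Q (Q¹² / u)`. -/
theorem uCuspEq_dual_AL (D : ALData) [NeZero D.Q] [NeZero (D.Q * D.R)] (hQ : D.Q.Prime) :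
    UCuspEq Qb D.Q (jF (D.Q * D.R) D.Q (Dvd.intro _ rfl))
      (algebraMap Qb (modularFunctionFieldBar (D.Q * D.R)) ((D.Q : Qb) ^ 12) *
        (uF (D.Q * D.R) D.Q (Dvd.intro _ rfl))⁻¹) := by
  have h := ucMap (uCuspEq_uF_prime (N := D.Q * D.R) hQ (Dvd.intro _ rfl))
    (atkinLehner D).toAlgHom
  have e1 : (atkinLehner D).toAlgHom (Fermat.Agent.S24.jBar (D.Q * D.R)) =
      jF (D.Q * D.R) D.Q (Dvd.intro _ rfl) := by
    rw [← jF_one_eq_jBar]
    exact atkinLehner_j D
  have e2 : (atkinLehner D).toAlgHom (uF (D.Q * D.R) D.Q (Dvd.intro _ rfl)) =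
      algebraMap Qb (modularFunctionFieldBar (D.Q * D.R)) ((D.Q : Qb) ^ 12) *
        (uF (D.Q * D.R) D.Q (Dvd.intro _ rfl))⁻¹ := by
    show atkinLehner D (uF (D.Q * D.R) D.Q (Dvd.intro _ rfl)) = _
    rw [atkinLehner_uF, map_pow, map_natCast, div_eq_mul_inv]
  rw [e1, e2] at h
  exact h

variable (q : ℕ) [NeZero q]

/-- the modular equation of `u` over `ℚ̄(j)` in `ℚ̄((t))`. -/
theorem uCuspEq_ser (hq : q.Prime) :
    UCuspEq Qb q (jqModC Qb) (uSer Qb q) := by
  have h := ucMap (uCuspEq_uF_prime (N := q) hq dvd_rfl) (modularFunctionFieldBar q).val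
  have e1 : (modularFunctionFieldBar q).val (Fermat.Agent.S24.jBar q) = jqModC Qb :=
    Fermat.Agent.S24.coe_jBar_eq_jqModC q
  have e2 : (modularFunctionFieldBar q).val (uF q q dvd_rfl) = uSer Qb q := rfl
  rw [e1, e2] at h
  exact h

/-- the dual modular equation in `ℚ̄((t))`. -/
theorem uCuspEq_ser_dual (hq : q.Prime) :
    UCuspEq Qb q (qExpand Qb q (jqModC Qb))
      (algebraMap Qb (LaurentSeries Qb) ((q : Qb) ^ 12) * (uSer Qb q)⁻¹) := by
  obtain ⟨D, hDQ, hDR⟩ := ALData.exists_of_coprime (Q := q) (R := 1) hq.pos one_pos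
    (Nat.coprime_one_right q)
  subst hDQ
  haveI : NeZero (D.Q * D.R) := ⟨Nat.mul_ne_zero (NeZero.ne _) (by rw [hDR]; exact one_ne_zero)⟩
  have h := ucMap (uCuspEq_dual_AL D hq) (modularFunctionFieldBar (D.Q * D.R)).val
  exact h

end AL

section LevelP

variable {p : ℕ} [NeZero p]

/-- `jpB p` of the interface is `jF p p`. -/
lemma jpB_eq_jF : jpB p = jF p p dvd_rfl := by
  apply Subtype.ext
  show coeffEmb Qb (qExpand ℚ p jq) = qExpand Qb p (jqModC Qb)
  exact coeffEmb_qExpand_jq p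

/-- the dual modular equation at level `p`. -/
theorem uCuspEq_dual_prime (hp : p.Prime) :
    UCuspEq Qb p (jpB p)
      (algebraMap Qb (modularFunctionFieldBar p) ((p : Qb) ^ 12) * (uF p p dvd_rfl)⁻¹) := by
  apply ucOfMap (modularFunctionFieldBar p).val
  have h := uCuspEq_ser_dual p hp
  have e1 : (modularFunctionFieldBar p).val (jpB p) = qExpand Qb p (jqModC Qb) := by
    rw [jpB_eq_jF]
    rfl
  have e2 : (modularFunctionFieldBar p).val
      (algebraMap Qb (modularFunctionFieldBar p) ((p : Qb) ^ 12) * (uF p p dvd_rfl)⁻¹) =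
      algebraMap Qb (LaurentSeries Qb) ((p : Qb) ^ 12) * (uSer Qb p)⁻¹ := rfl
  rw [e1, e2]
  exact h

/-- the bookkeeping at a place of `X₀(p)`. -/
theorem ord_trichotomy (hp : p.Prime) (v : Pl p) :
    (0 ≤ v.ord (jB p) ∧ 0 ≤ v.ord (jpB p) ∧ v.ord (uF p p dvd_rfl) = 0) ∨
      (v.ord (uF p p dvd_rfl) < 0 ∧ v.ord (jB p) < 0 ∧
        v.ord (jpB p) = (p : ℤ) * v.ord (jB p) ∧
        v.ord (uF p p dvd_rfl) = ((p : ℤ) - 1) * v.ord (jB p)) ∨
      (0 < v.ord (uF p p dvd_rfl) ∧ v.ord (jpB p) < 0 ∧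
        v.ord (jB p) = (p : ℤ) * v.ord (jpB p) ∧
        v.ord (uF p p dvd_rfl) = -(((p : ℤ) - 1) * v.ord (jpB p))) := by
  have hp0 : ((p : Qb) ^ 12) ≠ 0 := pow_ne_zero 12 (by exact_mod_cast hp.ne_zero)
  have h1 := uCuspEq_uF_prime (N := p) hp dvd_rfl
  rw [← jB_eq_jBar] at h1
  exact ucDualOrd hp0 h1 (uCuspEq_dual_prime hp) v

/-- the poles of `j_p` are the poles of `j`. -/
theorem ord_jpB_neg_iff (hp : p.Prime) (v : Pl p) : v.ord (jpB p) < 0 ↔ v.ord (jB p) < 0 := by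
  have hp2 := hp.two_le
  rcases ord_trichotomy hp v with ⟨h1, h2, -⟩ | ⟨-, h1, h2, -⟩ | ⟨-, h1, h2, -⟩
  · constructor <;> intro h <;> omega
  · constructor
    · intro _; exact h1
    · intro _
      rw [h2]
      exact mul_neg_of_pos_of_neg (by exact_mod_cast hp.pos) h1
  · constructor
    · intro _
      rw [h2]
      exact mul_neg_of_pos_of_neg (by exact_mod_cast hp.pos) h1
    · intro _; exact h1

/-- `ord_∞ j_p = -p`. -/
theorem ord_cuspInf_jpB (hp : p.Prime) : (cuspInf p).ord (jpB p) = -(p : ℤ) := by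
  have hu := ord_cuspInf_uF p
  have hj := ord_cuspInf_jB p
  have hp2 := hp.two_le
  rcases ord_trichotomy hp (cuspInf p) with ⟨-, -, h3⟩ | ⟨-, -, h3, -⟩ | ⟨h3, -⟩
  · omega
  · rw [h3, hj]; ring
  · omega

/-- `ord_0 j_p = -1`, `ord_0 j = -p`, `ord_0 u = p - 1`. -/
theorem ord_cuspZero (hp : p.Prime) {P0 : Pl p} (h0 : IsCuspZero p P0) :
    P0.ord (jpB p) = -1 ∧ P0.ord (jB p) = -(p : ℤ) ∧
      P0.ord (uF p p dvd_rfl) = (p : ℤ) - 1 := by
  obtain ⟨P1, hne, hu, hj, hz⟩ := exists_cuspZero_div hp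
  have hp2 := hp.two_le
  have hj' : P1.ord (jB p) < 0 := by rw [hj]; omega
  obtain rfl := (isCuspZero_iff_of hp hne hj' hz P0).mp h0
  refine ⟨?_, hj, hu⟩
  rcases ord_trichotomy hp P0 with ⟨h1, -, -⟩ | ⟨h1, -⟩ | ⟨-, -, h3, -⟩
  · omega
  · omega
  · rw [hj] at h3
    have hp0 : (p : ℤ) ≠ 0 := by exact_mod_cast hp.ne_zero
    have h4 : (p : ℤ) * P0.ord (jpB p) = (p : ℤ) * (-1) := by linarith
    exact mul_left_cancel₀ hp0 h4

/-- every pole of `j` is `∞` or the cusp `0`. -/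
theorem eq_cusp_of_ord_jB_neg (hp : p.Prime) {P0 : Pl p} (h0 : IsCuspZero p P0) {v : Pl p}
    (hv : v.ord (jB p) < 0) : v = cuspInf p ∨ v = P0 := by
  by_cases h : v = cuspInf p
  · exact Or.inl h
  · exact Or.inr ((cuspZeroData hp).uniq v P0 ⟨h, hv⟩ h0)

end LevelP

end Fermat.Agent.ES15
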