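import Mathlib
import Fermat.Agent.Lib.RR.Hurwitz.Fibres
import Fermat.Agent.S17.Pts.Eval

/-!
# Cluster E' (Mazur, S15), seat S15-C: cusps under a place reduction — the abstract core

`F / K`, `Fk / k` function fields, `r : Place K F → Place k Fk` a map of places, and
`Push r f f̄` : "`r_* (div f) = div f̄`".  Given the pole data of `j`, `j_p` (two cusps `∞`, `0`,
orders `(1, p)` and `(p, 1)`) and of `j̄`, `j̄_p`, and the push property for the five functions
`j`, `j_p`, `j / a - 1` (`a ∉ A`), `j_p / j ^ p - β`, `j / j_p ^ p - β` (`β` a unit of `A`), a place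
`x` with `j(x) = a ∉ A`, `j_p(x) = b` goes to `r ∞` if `v(b) = v(a) ^ p`, to `r 0` if
`v(a) = v(b) ^ p`, and only one place over `a` goes to `r ∞`.
-/

set_option autoImplicit false
set_option linter.unusedSectionVars false
set_option linter.unusedVariables false

noncomputable section

open AlgebraicCurve

namespace Fermat.Agent.ES15C

open Fermat.Agent.RR Fermat.Agent.S17 Fermat.Agent.RRHur

variable {K F k Fk : Type*} [Field K] [Field F] [Algebra K F] [Field k] [Field Fk] [Algebra k Fk]

/-- "`r_* (div f) = div f̄`" -/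
def Push (r : Place K F → Place k Fk) (f : F) (fbar : Fk) : Prop :=
  ∀ D : Divisor K F, (∀ P, D P = P.ord f) → ∀ Q, Finsupp.mapDomain r D Q = Q.ord fbar

open Classical in
theorem mapDomain_apply_sum (r : Place K F → Place k Fk) (D : Divisor K F) (Q : Place k Fk) :
    Finsupp.mapDomain r D Q = ∑ P ∈ D.support, if r P = Q then D P else 0 := by
  rw [Finsupp.mapDomain, Finsupp.sum_apply, Finsupp.sum]
  refine Finset.sum_congr rfl fun P _ => ?_
  rw [Finsupp.single_apply]

open Classical in
/-- the sum of the orders of `f` over the places in a fibre of `r`, over any finite set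
containing the support of `div f` -/
theorem push_sum (h : IsRRField K F) {r : Place K F → Place k Fk} {f : F} {fbar : Fk}
    (hpush : Push r f fbar) (Q : Place k Fk) (U : Finset (Place K F))
    (hU : (divOf h f).support ⊆ U) :
    ∑ P ∈ U, (if r P = Q then P.ord f else 0) = Q.ord fbar := by
  rw [← hpush (divOf h f) (fun P => divOf_apply h f P) Q, mapDomain_apply_sum]
  symm
  have h1 : ∀ P ∈ (divOf h f).support, (if r P = Q then (divOf h f) P else 0)
      = if r P = Q then P.ord f else 0 := fun P _ => by rw [divOf_apply]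
  rw [Finset.sum_congr rfl h1]
  refine Finset.sum_subset hU fun P _ hP => ?_
  rw [Finsupp.notMem_support_iff, divOf_apply] at hP
  rw [hP]
  simp

open Classical in
/-- the key bound: the places outside the exceptional set `T` contribute nonnegatively -/
theorem push_bound (h : IsRRField K F) {r : Place K F → Place k Fk} {f : F} {fbar : Fk}
    (hpush : Push r f fbar) (Q : Place k Fk) (T : Finset (Place K F))
    (hT : ∀ P, P ∉ T → r P = Q → 0 ≤ P.ord f) (V : Finset (Place K F))
    (hVT : Disjoint V T) (hV : ∀ P ∈ V, r P = Q) :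
    ∑ P ∈ V, P.ord f + ∑ P ∈ T, (if r P = Q then P.ord f else 0) ≤ Q.ord fbar := by
  set U : Finset (Place K F) := (divOf h f).support ∪ T ∪ V with hU
  have hsum := push_sum h hpush Q U (fun P hP => by
    rw [hU]
    exact Finset.mem_union_left _ (Finset.mem_union_left _ hP))
  have hTU : T ⊆ U := fun P hP => by
    rw [hU]
    exact Finset.mem_union_left _ (Finset.mem_union_right _ hP)
  have hVU : V ⊆ U \ T := fun P hP => by
    rw [Finset.mem_sdiff]
    refine ⟨?_, fun hPT => Finset.disjoint_left.1 hVT hP hPT⟩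
    rw [hU]
    exact Finset.mem_union_right _ hP
  rw [← Finset.sum_sdiff hTU] at hsum
  have h1 : ∑ P ∈ V, P.ord f = ∑ P ∈ V, (if r P = Q then P.ord f else 0) :=
    Finset.sum_congr rfl fun P hP => by rw [if_pos (hV P hP)]
  have h2 : ∑ P ∈ V, (if r P = Q then P.ord f else 0)
      ≤ ∑ P ∈ U \ T, (if r P = Q then P.ord f else 0) := by
    refine Finset.sum_le_sum_of_subset_of_nonneg hVU fun P hP _ => ?_
    rw [Finset.mem_sdiff] at hP
    split_ifs with hrP
    · exact hT P hP.2 hrP
    · exact le_rfl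
  linarith

open Classical in
theorem sum_pair {oo P0 : Place K F} (hne : oo ≠ P0) (g : Place K F → ℤ) :
    ∑ P ∈ ({oo, P0} : Finset (Place K F)), g P = g oo + g P0 := by
  rw [Finset.sum_insert (by rw [Finset.mem_singleton]; exact hne), Finset.sum_singleton]

/-- `ord (f - β) = 0` if `0 < ord f` and `β ≠ 0` -/
theorem ord_sub_const_of_pos {E : Type*} {L : Type*} [Field L] [Field E] [Algebra L E]
    (v : Place L E) {f : E} {β : L} (hβ : β ≠ 0) (hf : 0 < v.ord f) :
    v.ord (f - algebraMap L E β) = 0 := by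
  have h1 : 0 < v.ord (f - algebraMap L E 0) := by rwa [map_zero, sub_zero]
  exact ord_sub_const_eq_zero v (Ne.symm hβ) h1

/-- `0 ≤ ord (f - β)` if `0 ≤ ord f` -/
theorem ord_sub_const_nonneg (v : Place K F) {f : F} (β : K) (hf : 0 ≤ v.ord f) :
    0 ≤ v.ord (f - algebraMap K F β) := by
  have h1 : f ∈ v.toValuationSubring := Fermat.Agent.S24Res.mem_of_ord_nonneg v hf
  have h2 : algebraMap K F β ∈ v.toValuationSubring :=
    Fermat.Agent.S24Res.mem_of_ord_nonneg v (by rw [Fermat.Agent.S24Res.ord_algebraMap])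
  exact Fermat.Agent.S24Res.ord_nonneg_of_mem v (sub_mem h1 h2)


open Classical in
/-- `push_bound` with two exceptional places -/
theorem push_bound_pair (h : IsRRField K F) {r : Place K F → Place k Fk} {f : F} {fbar : Fk}
    (hpush : Push r f fbar) (Q : Place k Fk) {oo P0 : Place K F} (hne : oo ≠ P0)
    (hreg : ∀ P, P ≠ oo → P ≠ P0 → r P = Q → 0 ≤ P.ord f) (V : Finset (Place K F))
    (hVoo : oo ∉ V) (hVP0 : P0 ∉ V) (hV : ∀ P ∈ V, r P = Q) :
    ∑ P ∈ V, P.ord f + ((if r oo = Q then oo.ord f else 0) +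
      (if r P0 = Q then P0.ord f else 0)) ≤ Q.ord fbar := by
  have hb := push_bound h hpush Q ({oo, P0} : Finset (Place K F))
    (fun P hP hrP => hreg P (fun e => hP (by rw [e]; exact Finset.mem_insert_self _ _))
      (fun e => hP (by
        rw [e]
        exact Finset.mem_insert_of_mem (Finset.mem_singleton_self _))) hrP) V
    (by
      rw [Finset.disjoint_left]
      intro P hPV hPT
      rw [Finset.mem_insert, Finset.mem_singleton] at hPT
      rcases hPT with rfl | rfl
      · exact hVoo hPV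
      · exact hVP0 hPV) hV
  rwa [sum_pair hne (fun P => if r P = Q then P.ord f else 0)] at hb

/-- the two cusps in characteristic zero: `j` has poles of order `1`, `p` at `∞`, `0`;
`j_p` has poles of order `p`, `≤ 1`. -/
structure Cusps0 (p : ℕ) (j jp : F) (oo P0 : Place K F) : Prop where
  ne : oo ≠ P0
  j_oo : oo.ord j = -1
  j_P0 : P0.ord j = -(p : ℤ)
  j_reg : ∀ P : Place K F, P ≠ oo → P ≠ P0 → 0 ≤ P.ord j
  jp_oo : oo.ord jp = -(p : ℤ)
  jp_P0 : -1 ≤ P0.ord jp
  jp_reg : ∀ P : Place K F, P ≠ oo → P ≠ P0 → 0 ≤ P.ord jp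

/-- the two cusps in characteristic `ℓ`. -/
structure CuspsL (p : ℕ) (jbar jpbar : Fk) (oobar zbar : Place k Fk) : Prop where
  ne : oobar ≠ zbar
  j_oo : oobar.ord jbar = -1
  j_z : zbar.ord jbar ≤ -(p : ℤ)
  jp_oo : oobar.ord jpbar = -(p : ℤ)

section Core

variable (h : IsRRField K F) {p : ℕ} {r : Place K F → Place k Fk}
  {j jp : F} {jbar jpbar : Fk} {oo P0 : Place K F} {oobar zbar : Place k Fk}

include h

/-- **Step 1**: the cusps go to the cusps, and the other places over the cusps are not zeros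
of `j`. -/
theorem step_j (hp : 2 ≤ p) (c0 : Cusps0 p j jp oo P0) (cl : CuspsL p jbar jpbar oobar zbar)
    (hj : Push r j jbar) :
    r oo = oobar ∧ r P0 = zbar ∧
      ∀ P : Place K F, P ≠ oo → P ≠ P0 → (r P = oobar ∨ r P = zbar) → P.ord j = 0 := by
  classical
  have hp' : (2 : ℤ) ≤ p := by exact_mod_cast hp
  have hB := fun (Q : Place k Fk) (V : Finset (Place K F)) =>
    push_bound_pair h hj Q c0.ne (fun P h1 h2 _ => c0.j_reg P h1 h2) V
  -- `r P0 = zbar`
  have hP0 : r P0 = zbar := by
    by_contra hne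
    have h1 := hB zbar ∅ (Finset.notMem_empty _) (Finset.notMem_empty _)
      (fun P hP => absurd hP (Finset.notMem_empty _))
    rw [Finset.sum_empty, if_neg hne, c0.j_oo] at h1
    have h2 := cl.j_z
    split_ifs at h1 <;> omega
  have hP0' : r P0 ≠ oobar := by rw [hP0]; exact cl.ne.symm
  have hoo : r oo = oobar := by
    by_contra hne
    have h1 := hB oobar ∅ (Finset.notMem_empty _) (Finset.notMem_empty _)
      (fun P hP => absurd hP (Finset.notMem_empty _))
    rw [Finset.sum_empty, if_neg hne, if_neg hP0', cl.j_oo] at h1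
    omega
  have hoo' : r oo ≠ zbar := by rw [hoo]; exact cl.ne
  refine ⟨hoo, hP0, fun P h1 h2 hr => ?_⟩
  have hge := c0.j_reg P h1 h2
  rcases hr with hr | hr
  · have h3 := hB oobar {P} (by rw [Finset.mem_singleton]; exact h1.symm)
      (by rw [Finset.mem_singleton]; exact h2.symm)
      (fun P' hP' => by rw [Finset.mem_singleton] at hP'; rw [hP']; exact hr)
    rw [Finset.sum_singleton, if_pos hoo, if_neg hP0', c0.j_oo, cl.j_oo] at h3
    omega
  · have h3 := hB zbar {P} (by rw [Finset.mem_singleton]; exact h1.symm)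
      (by rw [Finset.mem_singleton]; exact h2.symm)
      (fun P' hP' => by rw [Finset.mem_singleton] at hP'; rw [hP']; exact hr)
    rw [Finset.sum_singleton, if_neg hoo', if_pos hP0, c0.j_P0] at h3
    have h4 := cl.j_z
    omega

/-- **Step 1'**: the same for `j_p` over `∞`, and the order of `j̄_p` at `0`. -/
theorem step_jp (c0 : Cusps0 p j jp oo P0) (cl : CuspsL p jbar jpbar oobar zbar)
    (hjp : Push r jp jpbar) (hoo : r oo = oobar) (hP0 : r P0 = zbar) :
    (-1 ≤ zbar.ord jpbar) ∧
      ∀ P : Place K F, P ≠ oo → P ≠ P0 → r P = oobar → P.ord jp = 0 := by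
  classical
  have hB := fun (Q : Place k Fk) (V : Finset (Place K F)) =>
    push_bound_pair h hjp Q c0.ne (fun P h1 h2 _ => c0.jp_reg P h1 h2) V
  have hP0' : r P0 ≠ oobar := by rw [hP0]; exact cl.ne.symm
  have hoo' : r oo ≠ zbar := by rw [hoo]; exact cl.ne
  refine ⟨?_, fun P h1 h2 hr => ?_⟩
  · have h1 := hB zbar ∅ (Finset.notMem_empty _) (Finset.notMem_empty _)
      (fun P hP => absurd hP (Finset.notMem_empty _))
    rw [Finset.sum_empty, if_neg hoo', if_pos hP0] at h1
    have h2 := c0.jp_P0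
    omega
  · have hge := c0.jp_reg P h1 h2
    have h3 := hB oobar {P} (by rw [Finset.mem_singleton]; exact h1.symm)
      (by rw [Finset.mem_singleton]; exact h2.symm)
      (fun P' hP' => by rw [Finset.mem_singleton] at hP'; rw [hP']; exact hr)
    rw [Finset.sum_singleton, if_pos hoo, if_neg hP0', c0.jp_oo, cl.jp_oo] at h3
    omega

/-- a place where `j` takes a finite value is not a cusp. -/
theorem ne_cusps_of_congAt (c0 : Cusps0 p j jp oo P0) (hp : 2 ≤ p) {a : K} {x : Place K F}
    (hx : Pts.CongAt x j a) : x ≠ oo ∧ x ≠ P0 := by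
  have h0 := hx.ord_nonneg
  constructor
  · rintro rfl
    rw [c0.j_oo] at h0
    omega
  · rintro rfl
    rw [c0.j_P0] at h0
    omega

/-- `j` is not constant. -/
theorem pos_ord_of_congAt (c0 : Cusps0 p j jp oo P0) {a : K} {x : Place K F}
    (hx : Pts.CongAt x j a) : 0 < x.ord (j - algebraMap K F a) := by
  rcases hx with hx | hx
  · exfalso
    have h1 := c0.j_oo
    rw [hx, Fermat.Agent.S24Res.ord_algebraMap] at h1
    omega
  · exact hx

/-- **Step 2**: the places over `a ∉ A` go to the cusps, and only one of them goes to `∞`. -/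
theorem step_const (hp : 2 ≤ p) (c0 : Cusps0 p j jp oo P0) {a : K}
    (hconst : Push r (j - algebraMap K F a) (1 : Fk)) (hne : r oo ≠ r P0)
    {x : Place K F} (hx : Pts.CongAt x j a) :
    (r x = r oo ∨ r x = r P0) ∧
      (r x = r oo → ∀ x' : Place K F, Pts.CongAt x' j a → r x' = r oo → x' = x) := by
  classical
  have hp' : (2 : ℤ) ≤ p := by exact_mod_cast hp
  have hreg : ∀ P : Place K F, P ≠ oo → P ≠ P0 → 0 ≤ P.ord (j - algebraMap K F a) :=
    fun P h1 h2 => ord_sub_const_nonneg P a (c0.j_reg P h1 h2)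
  have hB := fun (Q : Place k Fk) (V : Finset (Place K F)) =>
    push_bound_pair h hconst Q c0.ne (fun P h1 h2 _ => hreg P h1 h2) V
  have hoo : oo.ord (j - algebraMap K F a) = -1 := by
    rw [ord_sub_const_of_pole oo a (by rw [c0.j_oo]; omega), c0.j_oo]
  have hP0 : P0.ord (j - algebraMap K F a) = -(p : ℤ) := by
    rw [ord_sub_const_of_pole P0 a (by rw [c0.j_P0]; omega), c0.j_P0]
  have hxc := ne_cusps_of_congAt h c0 hp hx
  have hxpos := pos_ord_of_congAt h c0 hx
  constructor
  · by_contra hcon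
    rw [not_or] at hcon
    have h3 := hB (r x) {x} (by rw [Finset.mem_singleton]; exact hxc.1.symm)
      (by rw [Finset.mem_singleton]; exact hxc.2.symm)
      (fun P' hP' => by rw [Finset.mem_singleton] at hP'; rw [hP'])
    rw [Finset.sum_singleton, if_neg (fun e => hcon.1 e.symm), if_neg (fun e => hcon.2 e.symm),
      Place.ord_one] at h3
    omega
  · intro hrx x' hx' hrx'
    by_contra hxx
    have hxc' := ne_cusps_of_congAt h c0 hp hx'
    have hxpos' := pos_ord_of_congAt h c0 hx'
    have h3 := hB (r oo) {x', x} (by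
        rw [Finset.mem_insert, Finset.mem_singleton, not_or]
        exact ⟨hxc'.1.symm, hxc.1.symm⟩)
      (by
        rw [Finset.mem_insert, Finset.mem_singleton, not_or]
        exact ⟨hxc'.2.symm, hxc.2.symm⟩)
      (fun P' hP' => by
        rw [Finset.mem_insert, Finset.mem_singleton] at hP'
        rcases hP' with rfl | rfl
        · exact hrx'
        · exact hrx)
    rw [Finset.sum_insert (by rw [Finset.mem_singleton]; exact hxx), Finset.sum_singleton,
      if_pos rfl, if_neg (fun e => hne e.symm), hoo, Place.ord_one] at h3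
    omega


omit h in
theorem ord_pow_nat (v : Place K F) (f : F) (n : ℕ) : v.ord (f ^ n) = n * v.ord f := by
  rw [← zpow_natCast, Place.ord_zpow]

omit h in
theorem ord_div_pow (v : Place K F) {f g : F} (hf : f ≠ 0) (hg : g ≠ 0) (n : ℕ) :
    v.ord (f / g ^ n) = v.ord f - n * v.ord g := by
  rw [div_eq_mul_inv, v.ord_mul hf (inv_ne_zero (pow_ne_zero n hg)), v.ord_inv, ord_pow_nat]
  ring

omit h in
theorem ne_zero_of_ord_ne_zero (v : Place K F) {f : F} (hf : v.ord f ≠ 0) : f ≠ 0 := by
  rintro rfl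
  exact hf v.ord_zero

/-- the value of `f / g ^ n` -/
theorem congAt_div_pow {x : Place K F} {f g : F} {a b : K} (hf0 : f ≠ 0) (hg0 : g ≠ 0)
    (hb : b ≠ 0) (hf : Pts.CongAt x f a) (hg : Pts.CongAt x g b) (n : ℕ) :
    Pts.CongAt x (f / g ^ n) (a / b ^ n) := by
  have hgn := hg.ord_nonneg
  have hfn := hf.ord_nonneg
  have hev : Pts.ev x g = b := Pts.ev_eq_of_congAt hg
  have hg0' : x.ord g = 0 := by
    by_contra hne
    have hpos : 0 < x.ord g := lt_of_le_of_ne hgn (Ne.symm hne)
    have := (Pts.ev_eq_zero_iff h x hg0 hgn).mpr hpos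
    rw [hev] at this
    exact hb this
  have hgp : x.ord (g ^ n) = 0 := by rw [ord_pow_nat, hg0', mul_zero]
  have hy : 0 ≤ x.ord (f / g ^ n) := by
    rw [ord_div_pow x hf0 hg0, hg0', mul_zero, sub_zero]
    exact hfn
  have h1 := Pts.congAt_ev h x hy
  rwa [Pts.ev_div h x hfn hgp, Pts.ev_pow h x hgn, hev, Pts.ev_eq_of_congAt hf] at h1

/-- **Step 3**, general form: a place `x` with `y(x) = β ≠ 0` does not go to `Q`, if `y` and `ȳ`
vanish at the cusp `c` over `Q` resp. at `Q`. -/
theorem step_y {y : F} {ybar : Fk} {β : K} (hβ0 : β ≠ 0) {βbar : k} (hβ : βbar ≠ 0)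
    (hpush : Push r (y - algebraMap K F β) (ybar - algebraMap k Fk βbar))
    {c c' : Place K F} (hcc : c ≠ c') {Q : Place k Fk} (hrc : r c = Q) (hrc' : r c' ≠ Q)
    (hyc : 0 < c.ord y) (hyQ : 0 < Q.ord ybar)
    (hreg : ∀ P : Place K F, P ≠ c → P ≠ c' → r P = Q → 0 ≤ P.ord y)
    {x : Place K F} (hxc : x ≠ c) (hxc' : x ≠ c') (hx : Pts.CongAt x y β) : r x ≠ Q := by
  classical
  intro hrx
  have hxpos : 0 < x.ord (y - algebraMap K F β) := by
    rcases hx with hx | hx
    · exfalso
      rw [hx, Fermat.Agent.S24Res.ord_algebraMap] at hyc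
      exact lt_irrefl _ hyc
    · exact hx
  have h3 := push_bound_pair h hpush Q hcc
    (fun P h1 h2 hr => ord_sub_const_nonneg P β (hreg P h1 h2 hr)) {x}
    (by rw [Finset.mem_singleton]; exact hxc.symm)
    (by rw [Finset.mem_singleton]; exact hxc'.symm)
    (fun P' hP' => by rw [Finset.mem_singleton] at hP'; rw [hP']; exact hrx)
  rw [Finset.sum_singleton, if_pos hrc, if_neg hrc', ord_sub_const_of_pos c hβ0 hyc,
    ord_sub_const_of_pos Q hβ hyQ] at h3
  omega

/-- **the core of S15-C**. -/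
theorem cusp_core (hp : 2 ≤ p) (c0 : Cusps0 p j jp oo P0) (cl : CuspsL p jbar jpbar oobar zbar)
    (hj : Push r j jbar) (hjp : Push r jp jpbar) {a b : K} (ha : a ≠ 0)
    {x : Place K F} (hxa : Pts.CongAt x j a) (hxb : Pts.CongAt x jp b)
    (hconst : Push r (j - algebraMap K F a) (1 : Fk)) :
    (b ≠ 0 → (∃ βbar : k, βbar ≠ 0 ∧ Push r (jp / j ^ p - algebraMap K F (b / a ^ p))
        (jpbar / jbar ^ p - algebraMap k Fk βbar)) → r x = r oo) ∧
    (b ≠ 0 → (∃ βbar : k, βbar ≠ 0 ∧ Push r (j / jp ^ p - algebraMap K F (a / b ^ p))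
        (jbar / jpbar ^ p - algebraMap k Fk βbar)) → r x = r P0) ∧
    (r x = r oo → ∀ x' : Place K F, Pts.CongAt x' j a → r x' = r oo → x' = x) := by
  have hp' : (2 : ℤ) ≤ p := by exact_mod_cast hp
  have hpp : (4 : ℤ) ≤ (p : ℤ) * p := by nlinarith
  obtain ⟨hoo, hP0, hjzero⟩ := step_j h hp c0 cl hj
  obtain ⟨hjpz, hjpzero⟩ := step_jp h c0 cl hjp hoo hP0
  have hne : r oo ≠ r P0 := by rw [hoo, hP0]; exact cl.ne
  obtain ⟨hcusp, huniq⟩ := step_const h hp c0 hconst hne hxa
  obtain ⟨hxoo, hxP0⟩ := ne_cusps_of_congAt h c0 hp hxa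
  have hj0 : j ≠ 0 := ne_zero_of_ord_ne_zero oo (by rw [c0.j_oo]; omega)
  have hjp0 : jp ≠ 0 := ne_zero_of_ord_ne_zero oo (by rw [c0.jp_oo]; omega)
  have hjb0 : jbar ≠ 0 := ne_zero_of_ord_ne_zero oobar (by rw [cl.j_oo]; omega)
  have hjpb0 : jpbar ≠ 0 := ne_zero_of_ord_ne_zero oobar (by rw [cl.jp_oo]; omega)
  refine ⟨?_, ?_, huniq⟩
  · rintro hb ⟨βbar, hβ, hpush⟩
    rcases hcusp with hc | hc
    · exact hc
    · exfalso
      refine step_y h (div_ne_zero hb (pow_ne_zero p ha)) hβ hpush c0.ne.symm hP0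
        (by rw [hoo]; exact cl.ne) ?_ ?_ ?_ hxP0 hxoo (congAt_div_pow h hjp0 hj0 ha hxb hxa p)
        (hc.trans hP0)
      · rw [ord_div_pow P0 hjp0 hj0, c0.j_P0]
        have := c0.jp_P0
        nlinarith
      · rw [ord_div_pow zbar hjpb0 hjb0]
        have := cl.j_z
        nlinarith
      · intro P h1 h2 hr
        rw [ord_div_pow P hjp0 hj0, hjzero P h2 h1 (Or.inr hr), mul_zero, sub_zero]
        exact c0.jp_reg P h2 h1
  · rintro hb ⟨βbar, hβ, hpush⟩
    rcases hcusp with hc | hc
    · exfalso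
      refine step_y h (div_ne_zero ha (pow_ne_zero p hb)) hβ hpush c0.ne hoo
        (by rw [hP0]; exact cl.ne.symm) ?_ ?_ ?_ hxoo hxP0
        (congAt_div_pow h hj0 hjp0 hb hxa hxb p) (hc.trans hoo)
      · rw [ord_div_pow oo hj0 hjp0, c0.j_oo, c0.jp_oo]
        nlinarith
      · rw [ord_div_pow oobar hjb0 hjpb0, cl.j_oo, cl.jp_oo]
        nlinarith
      · intro P h1 h2 hr
        rw [ord_div_pow P hj0 hjp0, hjzero P h1 h2 (Or.inl hr), hjpzero P h1 h2 hr, mul_zero,
          sub_zero]
    · exact hc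


omit h in
/-- `Push` only depends on the divisors. -/
theorem Push.congr {f f' : F} {fbar fbar' : Fk} (hpush : Push r f fbar)
    (hf : ∀ P : Place K F, P.ord f' = P.ord f) (hfbar : ∀ Q : Place k Fk, Q.ord fbar' = Q.ord fbar) :
    Push r f' fbar' := by
  intro D hD Q
  rw [hfbar Q]
  exact hpush D (fun P => by rw [hD P, hf P]) Q

/-- **the cusps in characteristic `ℓ`** from the degree of `j̄`: if the pole divisor of `j̄` has
degree `p + 1`, and `∞̄` is a simple pole of `j̄`, then `r ∞ = ∞̄`, `r 0 ≠ ∞̄` is a pole of order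
`p` of `j̄`. -/
theorem cuspsL_of_degree (hp : 2 ≤ p) (c0 : Cusps0 p j jp oo P0)
    (hj : Push r j jbar) {oobar : Place k Fk} (hoo : oobar.ord jbar = -1)
    (hjpoo : oobar.ord jpbar = -(p : ℤ))
    (hdeg : ∀ s : Finset (Place k Fk), (∀ v, v ∈ s ↔ v.ord jbar < 0) →
      ∑ v ∈ s, (-v.ord jbar) = (p : ℤ) + 1) :
    CuspsL p jbar jpbar oobar (r P0) := by
  classical
  have hp' : (2 : ℤ) ≤ p := by exact_mod_cast hp
  have hB := fun Q : Place k Fk => push_bound_pair h hj Q c0.ne
    (fun P h1 h2 _ => c0.j_reg P h1 h2) ∅ (Finset.notMem_empty _) (Finset.notMem_empty _)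
    (fun P hP => absurd hP (Finset.notMem_empty _))
  have hpole : ∀ Q : Place k Fk, Q.ord jbar < 0 → Q = r oo ∨ Q = r P0 := by
    intro Q hQ
    by_contra hcon
    rw [not_or] at hcon
    have h1 := hB Q
    rw [Finset.sum_empty, if_neg (Ne.symm hcon.1), if_neg (Ne.symm hcon.2)] at h1
    omega
  have hoo' : oobar = r oo ∨ oobar = r P0 := hpole oobar (by rw [hoo]; omega)
  by_cases hQ : r oo = r P0
  · exfalso
    have hs : ∀ v : Place k Fk, v ∈ ({oobar} : Finset (Place k Fk)) ↔ v.ord jbar < 0 := by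
      intro v
      rw [Finset.mem_singleton]
      constructor
      · rintro rfl
        rw [hoo]
        omega
      · intro hv
        have e1 : v = r P0 := by
          rcases hpole v hv with e | e
          · rw [e, hQ]
          · exact e
        have e2 : oobar = r P0 := by
          rcases hoo' with e | e
          · rw [e, hQ]
          · exact e
        rw [e1, e2]
    have h1 := hdeg _ hs
    rw [Finset.sum_singleton, hoo] at h1
    omega
  · have h1 := hB (r oo)
    rw [Finset.sum_empty, if_pos rfl, if_neg (Ne.symm hQ), c0.j_oo] at h1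
    have h2 := hB (r P0)
    rw [Finset.sum_empty, if_neg hQ, if_pos rfl, c0.j_P0] at h2
    have hs : ∀ v : Place k Fk,
        v ∈ ({r oo, r P0} : Finset (Place k Fk)).filter (fun v => v.ord jbar < 0) ↔
          v.ord jbar < 0 := by
      intro v
      rw [Finset.mem_filter, Finset.mem_insert, Finset.mem_singleton]
      exact ⟨fun hv => hv.2, fun hv => ⟨hpole v hv, hv⟩⟩
    have hd := hdeg _ hs
    rw [Finset.sum_filter, Finset.sum_pair hQ] at hd
    have e1 : (r oo).ord jbar = -1 ∧ (r P0).ord jbar = -(p : ℤ) := by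
      split_ifs at hd <;> omega
    refine ⟨?_, hoo, e1.2.le, hjpoo⟩
    rcases hoo' with e | e
    · rw [e]
      exact hQ
    · exfalso
      rw [e, e1.2] at hoo
      omega

end Core

end Fermat.Agent.ES15C
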