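import Mathlib
import Fermat.Prelude.Def_ModularCurve_X0ModL
import Fermat.Prelude.Def_ModularCurve_ReductionModL
import Fermat.Agent.E.S15.CuspRedCore

/-!
# Cluster E' (Mazur, S15), seat S15-C: the integral models of `j(q^d)`, `j(q^d)⁻¹`

`jdSer R d = j(q^d) ∈ R((q))`, a unit of `R((q))` (any commutative ring `R`), compatible with
`coeffMap`; its order is `-d`; `push_of_integral`: the push property of a place reduction for
a function with an integral `q`-expansion.
-/

set_option autoImplicit false
set_option linter.unusedSectionVars false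
set_option linter.unusedVariables false
set_option synthInstance.maxHeartbeats 400000

noncomputable section

open AlgebraicCurve ModularCurve HahnSeries

namespace Fermat.Agent.ES15C

section Ser

variable (R : Type*) [CommRing R]

/-- `j(q^d)` over `R`. -/
def jdSer (d : ℕ) [NeZero d] : LaurentSeries R := qExpand R d (jqModC R)

theorem jdSer_one : jdSer R 1 = jqModC R := qExpand_one_apply _

variable {R} in
theorem coeffMap_jdSer {S : Type*} [CommRing S] (f : R →+* S) (d : ℕ) [NeZero d] :
    coeffMap f (jdSer R d) = jdSer S d := by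
  rw [jdSer, coeffMap_qExpand, coeffMap_jqModC]
  rfl

theorem isUnit_jqModC : IsUnit (jqModC R) := by
  unfold jqModC
  refine IsUnit.mul ?_ ?_
  · refine IsUnit.of_mul_eq_one (HahnSeries.single (1 : ℤ) (1 : R)) ?_
    rw [HahnSeries.single_mul_single]
    simp
  · apply IsUnit.map
    rw [PowerSeries.isUnit_iff_constantCoeff]
    have h1 : PowerSeries.constantCoeff (jNum.map (Int.castRingHom R)) = 1 := by
      rw [← PowerSeries.coeff_zero_eq_constantCoeff, PowerSeries.coeff_map,
        PowerSeries.coeff_zero_eq_constantCoeff, constantCoeff_jNum]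
      simp
    rw [h1]
    exact isUnit_one

theorem isUnit_jdSer (d : ℕ) [NeZero d] : IsUnit (jdSer R d) :=
  (isUnit_jqModC R).map (qExpand R d)

/-- `j(q^d)⁻¹` over `R`. -/
def jdInv (d : ℕ) [NeZero d] : LaurentSeries R :=
  (((isUnit_jdSer R d).unit⁻¹ : (LaurentSeries R)ˣ) : LaurentSeries R)

theorem jdSer_mul_jdInv (d : ℕ) [NeZero d] : jdSer R d * jdInv R d = 1 :=
  (isUnit_jdSer R d).mul_val_inv

variable {R} in
theorem coeffMap_jdInv {L : Type*} [Field L] (f : R →+* L) (d : ℕ) [NeZero d] :
    coeffMap f (jdInv R d) = (jdSer L d)⁻¹ := by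
  have h1 := congrArg (coeffMap f) (jdSer_mul_jdInv R d)
  rw [map_mul, map_one, coeffMap_jdSer] at h1
  exact eq_inv_of_mul_eq_one_right h1

variable {R} in
theorem coeffMap_C {S : Type*} [CommRing S] (f : R →+* S) (c : R) :
    coeffMap f (HahnSeries.C c : LaurentSeries R) = HahnSeries.C (f c) := by
  show coeffMap f (HahnSeries.single 0 c) = HahnSeries.single 0 (f c)
  rw [coeffMap_single]

theorem C_eq_algebraMap (L : Type*) [Field L] (c : L) :
    (HahnSeries.C c : LaurentSeries L) = algebraMap L (LaurentSeries L) c := by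
  rw [algebraMap_laurentSeries_eq_single]
  rfl

end Ser

section Order

variable {L : Type*} [Field L]

/-- the order of `f(q^N)`. -/
theorem order_qExpand (N : ℕ) [NeZero N] {f : LaurentSeries L} (hf : f ≠ 0) :
    (qExpand L N f).order = (N : ℤ) * f.order := by
  have hcoeff' : (qExpand L N f).coeff ((N : ℤ) * f.order) ≠ 0 := by
    rw [qExpand_coeff_mul]
    exact fun h0 => hf (HahnSeries.coeff_order_eq_zero.mp h0)
  have hne : qExpand L N f ≠ 0 := HahnSeries.ne_zero_of_coeff_ne_zero hcoeff'
  have hbelow : ∀ k : ℤ, k < (N : ℤ) * f.order → (qExpand L N f).coeff k = 0 := by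
    intro k hk
    by_cases hdvd : (N : ℤ) ∣ k
    · obtain ⟨j, rfl⟩ := hdvd
      rw [qExpand_coeff_mul]
      refine HahnSeries.coeff_eq_zero_of_lt_order ?_
      have hp : (0 : ℤ) < (N : ℤ) := by exact_mod_cast Nat.pos_of_ne_zero (NeZero.ne N)
      exact lt_of_mul_lt_mul_left hk hp.le
    · exact qExpand_coeff_of_not_dvd N f hdvd
  refine le_antisymm (HahnSeries.order_le_of_coeff_ne_zero hcoeff') ?_
  by_contra hlt
  rw [not_le] at hlt
  exact hne (HahnSeries.coeff_order_eq_zero.mp (hbelow _ hlt))

theorem order_jqModC' (L : Type*) [Field L] : (jqModC L).order = -1 := by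
  have h1 : (jqModC L).coeff (-1 : ℤ) ≠ 0 := by
    rw [coeff_jqModC_neg_one]
    exact one_ne_zero
  have hle : (jqModC L).order ≤ -1 := HahnSeries.order_le_of_coeff_ne_zero h1
  refine le_antisymm hle ?_
  by_contra hlt
  rw [not_le] at hlt
  have hne : jqModC L ≠ 0 := jqModC_ne_zero_of_nontrivial L
  exact hne (HahnSeries.coeff_order_eq_zero.mp (coeff_jqModC_of_lt L hlt))

theorem order_jdSer (L : Type*) [Field L] (d : ℕ) [NeZero d] : (jdSer L d).order = -(d : ℤ) := by
  rw [jdSer, order_qExpand d (jqModC_ne_zero_of_nontrivial L), order_jqModC']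
  ring

theorem jdSer_ne_zero (L : Type*) [Field L] (d : ℕ) [NeZero d] : jdSer L d ≠ 0 :=
  (isUnit_jdSer L d).ne_zero

end Order

section Push

variable {A : ValuationSubring (AlgebraicClosure ℚ)} {N : ℕ}
  {r : Place (AlgebraicClosure ℚ) (modularFunctionFieldBar N) →
    Place (IsLocalRing.ResidueField A) (modularFunctionFieldFullC (IsLocalRing.ResidueField A) N)}

/-- the push property of a place reduction, for a function with an integral `q`-expansion. -/
theorem push_of_integral (hr : IsPlaceReductionModL A N r) (y : LaurentSeries A)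
    {f : modularFunctionFieldBar N}
    {fbar : modularFunctionFieldFullC (IsLocalRing.ResidueField A) N}
    (hf : (f : LaurentSeries (AlgebraicClosure ℚ)) = coeffMap A.subtype y)
    (hfbar : (fbar : LaurentSeries (IsLocalRing.ResidueField A)) =
      coeffMap (IsLocalRing.residue A) y)
    (hne : fbar ≠ 0) : Push r f fbar := by
  intro D hD Q
  have hy : coeffMap A.subtype y ∈ modularFunctionFieldBar N := by
    rw [← hf]
    exact f.2
  have hyk : coeffMap (IsLocalRing.residue A) y ∈
      modularFunctionFieldFullC (IsLocalRing.ResidueField A) N := by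
    rw [← hfbar]
    exact fbar.2
  have e1 : (⟨coeffMap A.subtype y, hy⟩ : modularFunctionFieldBar N) = f := Subtype.ext hf.symm
  have e2 : (⟨coeffMap (IsLocalRing.residue A) y, hyk⟩ :
      modularFunctionFieldFullC (IsLocalRing.ResidueField A) N) = fbar := Subtype.ext hfbar.symm
  have h1 := hr.2 y hy hyk (by
    intro h0
    apply hne
    apply Subtype.ext
    rw [hfbar, h0]
    rfl) D (fun P => by rw [hD P, e1]) Q
  rw [h1, e2]

end Push

end Fermat.Agent.ES15C
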