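import Mathlib
import Fermat.Agent.E.S15.Interfaces
import Fermat.Agent.E.S15.CuspJp
import Fermat.Agent.E.S15.CuspOrd
import Fermat.Agent.E.S15.CuspRedInt
import Fermat.Agent.Lib.GenusEq.Inputs
import Fermat.Agent.Lib.RR.OfModularCFinal
import Fermat.Agent.Lib.RR.OfModularBar
import Fermat.Agent.Lib.RR.Hurwitz.Count
import Fermat.Agent.Lib.FrobTrace.Residue

/-!
# Cluster E' (Mazur, S15), seat S15-C (helper17): where a point near a cusp goes under a place
reduction

`cuspReduction (hp : p.Prime) : CuspReduction p` (`E/S15/Interfaces.lean`): for ANY place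
reduction `r` modulo a place `A` of `ℚ̄` over `ℓ ≠ p`, and a place `x` of `X₀(p)` with
`j(x) = a ∉ A`, `j_p(x) = b`:
* `v(b) = v(a)^p  →  r x = r ∞`;  `v(a) = v(b)^p  →  r x = r 0`;
* only one place over `a` goes to `r ∞`.

Proof: the abstract core `ES15C.cusp_core` (`CuspRedCore.lean`), the divisors of `j`, `j_p` in
characteristic `0` (helper98, `CuspJp.lean`), the degree `[F_k(p) : k(j̄)] = p + 1`
(`GenusEq.degreeModL`), and the integral `q`-expansions of `j`, `j_p`, `j / a - 1`,
`j_p / j ^ p - β`, `j / j_p ^ p - β` (`CuspRedInt.lean`).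
-/

set_option autoImplicit false
set_option linter.unusedSectionVars false
set_option linter.unusedVariables false
set_option linter.style.haveILetI false
set_option synthInstance.maxHeartbeats 400000

noncomputable section

open AlgebraicCurve ModularCurve HahnSeries

namespace Fermat.Agent.ES15C

open Fermat.Agent.ES15 Fermat.Agent.RR

local notation "Qb" => AlgebraicClosure ℚ

/-! ### the functions -/

section Functions

variable (k : Type*) [Field k] (N : ℕ)

/-- `j(q^d)` in `F_k(N)`. -/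
def jdC (d : ℕ) [NeZero d] (hd : d ∣ N) : modularFunctionFieldFullC k N :=
  ⟨jdSer k d, jqModCd_mem_full k N hd⟩

theorem coe_jdC (d : ℕ) [NeZero d] (hd : d ∣ N) :
    ((jdC k N d hd : modularFunctionFieldFullC k N) : LaurentSeries k) = jdSer k d := rfl

theorem jdC_ne_zero (d : ℕ) [NeZero d] (hd : d ∣ N) : jdC k N d hd ≠ 0 := by
  intro h0
  exact jdSer_ne_zero k d (congrArg Subtype.val h0)

theorem coe_jdB (d : ℕ) [NeZero d] (hd : d ∣ N) :
    ((jdB N d hd : modularFunctionFieldBar N) : LaurentSeries Qb) = jdSer Qb d := by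
  show coeffEmb Qb (qExpand ℚ d jq) = jdSer Qb d
  unfold coeffEmb
  rw [← jqModC_rat]
  exact coeffMap_jdSer (algebraMap ℚ Qb) d

theorem jdB_ne_zero (d : ℕ) [NeZero d] (hd : d ∣ N) : jdB N d hd ≠ 0 := by
  intro h0
  have h1 := congrArg Subtype.val h0
  rw [coe_jdB] at h1
  exact jdSer_ne_zero Qb d h1

end Functions

/-! ### characteristic `ℓ`: the place `∞̄` and the degree -/

section CharL

variable (k : Type*) [Field k] (N : ℕ) [NeZero N]

theorem exists_poleC : ∃ f : modularFunctionFieldFullC k N, ∃ n : ℤ, n < 0 ∧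
    (f : LaurentSeries k).coeff n ≠ 0 := by
  refine ⟨jdC k N 1 (one_dvd N), -1, by norm_num, ?_⟩
  rw [coe_jdC, jdSer_one, coeff_jqModC_neg_one]
  exact one_ne_zero

/-- the cusp `∞` of `X₀(N)` in characteristic `ℓ`. -/
def cuspInfC : Place k (modularFunctionFieldFullC k N) :=
  Fermat.Agent.S17.Setup.laurentPlace (modularFunctionFieldFullC k N) (exists_poleC k N)

/-- the order at `∞̄` is the order of the `q`-expansion. -/
theorem ord_cuspInfC {f : modularFunctionFieldFullC k N} (hf : f ≠ 0) :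
    (cuspInfC k N).ord f = (f : LaurentSeries k).order := by
  have ht : (((jdC k N 1 (one_dvd N))⁻¹ : modularFunctionFieldFullC k N) :
      LaurentSeries k).order = 1 := by
    have h2 : (((jdC k N 1 (one_dvd N))⁻¹ : modularFunctionFieldFullC k N) : LaurentSeries k) =
        ((jdC k N 1 (one_dvd N) : modularFunctionFieldFullC k N) : LaurentSeries k)⁻¹ := rfl
    rw [h2, coe_jdC, Fermat.Agent.ED.order_inv_laurent (jdSer_ne_zero k 1), order_jdSer]
    norm_num
  exact Fermat.Agent.ED.ord_laurentPlace (modularFunctionFieldFullC k N) (exists_poleC k N) ht hf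

theorem ord_cuspInfC_jdC (d : ℕ) [NeZero d] (hd : d ∣ N) :
    (cuspInfC k N).ord (jdC k N d hd) = -(d : ℤ) := by
  rw [ord_cuspInfC k N (jdC_ne_zero k N d hd), coe_jdC, order_jdSer]

theorem jdC_one_eq_jC : jdC k N 1 (one_dvd N) = Fermat.Agent.RRMod.jC k N :=
  Subtype.ext (jdSer_one k)

end CharL

/-! ### valuation rings -/

section Val

variable {K : Type*} [Field K] (A : ValuationSubring K)

theorem inv_mem_of_notMem {a : K} (ha : a ∉ A) : a⁻¹ ∈ A :=
  (A.mem_or_inv_mem a).resolve_left ha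

theorem ne_zero_of_notMem {a : K} (ha : a ∉ A) : a ≠ 0 := by
  rintro rfl
  exact ha (zero_mem A)

theorem residue_inv_of_notMem {a : K} (ha : a ∉ A) :
    IsLocalRing.residue A ⟨a⁻¹, inv_mem_of_notMem A ha⟩ = 0 := by
  rw [IsLocalRing.residue_eq_zero_iff, IsLocalRing.mem_maximalIdeal, mem_nonunits_iff]
  intro hu
  apply ha
  obtain ⟨u, hu⟩ := hu
  have h1 : ((u⁻¹ : Aˣ) : K) = a := by
    have h2 : ((u : A) : K) * ((u⁻¹ : Aˣ) : K) = 1 := by
      rw [← Subring.coe_mul]
      simp
    rw [hu] at h2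
    have h3 : a⁻¹ * ((u⁻¹ : Aˣ) : K) = 1 := h2
    have ha0 := ne_zero_of_notMem A ha
    field_simp at h3
    exact h3
  rw [← h1]
  exact (u⁻¹ : Aˣ).1.2

theorem val_gt_one_of_notMem {a : K} (ha : a ∉ A) : 1 < A.valuation a := by
  rw [← not_le, A.valuation_le_one_iff]
  exact ha

/-- an element of valuation `1` is a unit of `A`. -/
theorem exists_unit_of_val_eq_one {u : K} (hu : A.valuation u = 1) :
    ∃ β : A, (β : K) = u ∧ IsLocalRing.residue A β ≠ 0 := by
  have hmem : u ∈ A := (A.valuation_le_one_iff u).mp hu.le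
  refine ⟨⟨u, hmem⟩, rfl, ?_⟩
  rw [IsLocalRing.residue_ne_zero_iff_isUnit, A.valuation_eq_one_iff]
  exact hu

end Val

/-! ### the data in characteristic zero (helper98) -/

section Main

variable {p : ℕ} [NeZero p]

/-- the two cusps in characteristic zero. -/
theorem cusps0 (hp : p.Prime) {P0 : Pl p} (h0 : IsCuspZero p P0) :
    Cusps0 p (jB p) (jpB p) (cuspInf p) P0 where
  ne := h0.1.symm
  j_oo := ord_cuspInf_jB p
  j_P0 := (ord_cuspZero hp h0).2.1
  j_reg := fun P h1 h2 => by
    by_contra hlt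
    rw [not_le] at hlt
    rcases eq_cusp_of_ord_jB_neg hp h0 hlt with e | e
    · exact h1 e
    · exact h2 e
  jp_oo := ord_cuspInf_jpB hp
  jp_P0 := by rw [(ord_cuspZero hp h0).1]
  jp_reg := fun P h1 h2 => by
    by_contra hlt
    rw [not_le] at hlt
    rcases eq_cusp_of_ord_jB_neg hp h0 ((ord_jpB_neg_iff hp P).mp hlt) with e | e
    · exact h1 e
    · exact h2 e

/-- the degree of the pole divisor of `j̄` is `p + 1`. -/
theorem sum_poles_jC (hp : p.Prime) {ℓ : ℕ} (hℓ : ℓ.Prime) (hℓp : ℓ ≠ p)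
    (A : ValuationSubring Qb) (hA : A.LiesOverPrime ℓ)
    (s : Finset (Place (IsLocalRing.ResidueField A)
      (modularFunctionFieldFullC (IsLocalRing.ResidueField A) p)))
    (hs : ∀ v, v ∈ s ↔ v.ord (Fermat.Agent.RRMod.jC (IsLocalRing.ResidueField A) p) < 0) :
    ∑ v ∈ s, (-v.ord (Fermat.Agent.RRMod.jC (IsLocalRing.ResidueField A) p)) = (p : ℤ) + 1 := by
  haveI : IsAlgClosed (IsLocalRing.ResidueField A) :=
    Fermat.Agent.FrobTrace.isAlgClosed_residueField A
  have hk := Fermat.Agent.RRMod.isRRField_fullC' (IsLocalRing.ResidueField A) p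
  haveI := Fermat.Agent.RRMod.finiteDimensional_fullC' (IsLocalRing.ResidueField A) p
  have hℓp' : ¬ ℓ ∣ p := fun hd => hℓp ((Nat.prime_dvd_prime_iff_eq hℓ hp).mp hd)
  rw [← Fermat.Agent.RR.degree_poleDiv hk _ s hs,
    Fermat.Agent.RRHur.degree_poleDiv_eq_finrank hk
      (Fermat.Agent.RRMod.transcendental_jC (IsLocalRing.ResidueField A) p),
    Fermat.Agent.GenusEq.degreeModL p ℓ hℓ hℓp' A hA]
  have h := Fermat.Agent.S20.dedekindPsi_prime_pow (p := p) (k := 0) hp
  rw [zero_add, pow_one, pow_zero] at h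
  rw [h]
  push_cast
  ring

variable {A : ValuationSubring Qb}
  {r : Pl p → Place (IsLocalRing.ResidueField A)
    (modularFunctionFieldFullC (IsLocalRing.ResidueField A) p)}

/-- the push for `j(q^d)`. -/
theorem push_jd (hr : IsPlaceReductionModL A p r) (d : ℕ) [NeZero d] (hd : d ∣ p) :
    Push r (jdB p d hd) (jdC (IsLocalRing.ResidueField A) p d hd) :=
  push_of_integral hr (jdSer A d)
    (by rw [coe_jdB, coeffMap_jdSer])
    (by rw [coe_jdC, coeffMap_jdSer])
    (jdC_ne_zero _ p d hd)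

/-- the push for `j - a`, `a ∉ A` (constant reduction). -/
theorem push_const (hr : IsPlaceReductionModL A p r) {a : Qb} (haA : a ∉ A) :
    Push r (jB p - algebraMap Qb (modularFunctionFieldBar p) a)
      (1 : modularFunctionFieldFullC (IsLocalRing.ResidueField A) p) := by
  have ha0 := ne_zero_of_notMem A haA
  have h1 : Push r (algebraMap Qb (modularFunctionFieldBar p) a⁻¹ * jB p - 1)
      (-1 : modularFunctionFieldFullC (IsLocalRing.ResidueField A) p) := by
    refine push_of_integral hr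
      (HahnSeries.C (⟨a⁻¹, inv_mem_of_notMem A haA⟩ : A) * jdSer A 1 - 1) ?_ ?_ ?_
    · rw [map_sub, map_mul, map_one, coeffMap_C, coeffMap_jdSer, C_eq_algebraMap]
      show algebraMap Qb (LaurentSeries Qb) a⁻¹ *
        ((jdB p 1 (one_dvd p) : modularFunctionFieldBar p) : LaurentSeries Qb) - 1 = _
      rw [coe_jdB]
      rfl
    · rw [map_sub, map_mul, map_one, coeffMap_C, residue_inv_of_notMem A haA, map_zero,
        zero_mul, zero_sub]
      rfl
    · exact neg_ne_zero.mpr one_ne_zero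
  refine h1.congr (fun P => ?_) (fun Q => ?_)
  · have e : algebraMap Qb (modularFunctionFieldBar p) a⁻¹ * jB p - 1 =
        algebraMap Qb (modularFunctionFieldBar p) a⁻¹ *
          (jB p - algebraMap Qb (modularFunctionFieldBar p) a) := by
      rw [mul_sub, ← map_mul, inv_mul_cancel₀ ha0, map_one]
    rw [e]
    rcases eq_or_ne (jB p - algebraMap Qb (modularFunctionFieldBar p) a) 0 with h0 | h0
    · rw [h0, mul_zero]
    · rw [P.ord_mul ((map_ne_zero _).mpr (inv_ne_zero ha0)) h0,
        Fermat.Agent.S24Res.ord_algebraMap, zero_add]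
  · have e : (-1 : modularFunctionFieldFullC (IsLocalRing.ResidueField A) p) =
        algebraMap (IsLocalRing.ResidueField A) _ (-1) := by
      rw [map_neg, map_one]
    rw [Place.ord_one, e, Fermat.Agent.S24Res.ord_algebraMap]

/-- the push for `j(q^d) / j(q^e) ^ n - β`, `β ∈ A`. -/
theorem push_ratio (hr : IsPlaceReductionModL A p r) (d e : ℕ) [NeZero d] [NeZero e]
    (hd : d ∣ p) (he : e ∣ p) (n : ℕ) (β : A)
    (hne : jdC (IsLocalRing.ResidueField A) p d hd / jdC (IsLocalRing.ResidueField A) p e he ^ n -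
      algebraMap (IsLocalRing.ResidueField A) _ (IsLocalRing.residue A β) ≠ 0) :
    Push r (jdB p d hd / jdB p e he ^ n - algebraMap Qb (modularFunctionFieldBar p) (β : Qb))
      (jdC (IsLocalRing.ResidueField A) p d hd / jdC (IsLocalRing.ResidueField A) p e he ^ n -
        algebraMap (IsLocalRing.ResidueField A) _ (IsLocalRing.residue A β)) := by
  refine push_of_integral hr (jdSer A d * jdInv A e ^ n - HahnSeries.C β) ?_ ?_ hne
  · rw [map_sub, map_mul, map_pow, coeffMap_C, coeffMap_jdSer, coeffMap_jdInv, C_eq_algebraMap]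
    show ((jdB p d hd : modularFunctionFieldBar p) : LaurentSeries Qb) /
        ((jdB p e he : modularFunctionFieldBar p) : LaurentSeries Qb) ^ n -
        algebraMap Qb (LaurentSeries Qb) (β : Qb) = _
    rw [coe_jdB, coe_jdB, div_eq_mul_inv, inv_pow]
    rfl
  · rw [map_sub, map_mul, map_pow, coeffMap_C, coeffMap_jdSer, coeffMap_jdInv, C_eq_algebraMap]
    show ((jdC (IsLocalRing.ResidueField A) p d hd :
          modularFunctionFieldFullC (IsLocalRing.ResidueField A) p) :
          LaurentSeries (IsLocalRing.ResidueField A)) /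
        ((jdC (IsLocalRing.ResidueField A) p e he :
          modularFunctionFieldFullC (IsLocalRing.ResidueField A) p) :
          LaurentSeries (IsLocalRing.ResidueField A)) ^ n -
        algebraMap (IsLocalRing.ResidueField A) (LaurentSeries (IsLocalRing.ResidueField A))
          (IsLocalRing.residue A β) = _
    rw [coe_jdC, coe_jdC, div_eq_mul_inv, inv_pow]


/-- the ratios `j̄_p / j̄ ^ p`, `j̄ / j̄_p ^ p` are not constant. -/
theorem ratio_sub_const_ne_zero {K F k Fk : Type*} [Field K] [Field F] [Algebra K F] [Field k]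
    [Field Fk] [Algebra k Fk] (h : IsRRField K F) {q : ℕ} {r : Place K F → Place k Fk}
    {j jp : F} {jbar jpbar : Fk} {oo P0 : Place K F} {oobar zbar : Place k Fk}
    (hq : 2 ≤ q) (c0 : Cusps0 q j jp oo P0) (cl : CuspsL q jbar jpbar oobar zbar)
    (hj : Push r j jbar) (hjp : Push r jp jpbar) (βbar : k) :
    jpbar / jbar ^ q - algebraMap k Fk βbar ≠ 0 ∧ jbar / jpbar ^ q - algebraMap k Fk βbar ≠ 0 := by
  have hq' : (2 : ℤ) ≤ q := by exact_mod_cast hq
  have hqq : (4 : ℤ) ≤ (q : ℤ) * q := by nlinarith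
  obtain ⟨hoo, hP0, -⟩ := step_j h hq c0 cl hj
  obtain ⟨hjpz, -⟩ := step_jp h c0 cl hjp hoo hP0
  have hjb0 : jbar ≠ 0 := ne_zero_of_ord_ne_zero oobar (by rw [cl.j_oo]; omega)
  have hjpb0 : jpbar ≠ 0 := ne_zero_of_ord_ne_zero oobar (by rw [cl.jp_oo]; omega)
  constructor
  · intro h0
    have h1 : zbar.ord (jpbar / jbar ^ q) = 0 := by
      rw [sub_eq_zero.mp h0, Fermat.Agent.S24Res.ord_algebraMap]
    rw [ord_div_pow zbar hjpb0 hjb0] at h1
    have := cl.j_z
    nlinarith
  · intro h0
    have h1 : oobar.ord (jbar / jpbar ^ q) = 0 := by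
      rw [sub_eq_zero.mp h0, Fermat.Agent.S24Res.ord_algebraMap]
    rw [ord_div_pow oobar hjb0 hjpb0, cl.j_oo, cl.jp_oo] at h1
    nlinarith

/-- **S15-C**: where a point near a cusp goes under any place reduction. -/
theorem cuspReduction (hp : p.Prime) : CuspReduction p := by
  intro ℓ hℓ hℓp A hA r hr P0 hP0 a b x hxa hxb haA
  have hF := Fermat.Agent.RRMod.isRRField_bar p
  have c0 := cusps0 hp hP0
  have hj := push_jd hr 1 (one_dvd p)
  have hjp := push_jd hr p dvd_rfl
  have cl : CuspsL p (jdC (IsLocalRing.ResidueField A) p 1 (one_dvd p))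
      (jdC (IsLocalRing.ResidueField A) p p dvd_rfl)
      (cuspInfC (IsLocalRing.ResidueField A) p) (r P0) := by
    refine cuspsL_of_degree hF hp.two_le c0 hj (ord_cuspInfC_jdC _ p 1 (one_dvd p)) ?_ ?_
    · exact ord_cuspInfC_jdC _ p p dvd_rfl
    · intro s hs
      rw [jdC_one_eq_jC] at hs ⊢
      exact sum_poles_jC hp hℓ hℓp A hA s hs
  have ha0 := ne_zero_of_notMem A haA
  have hva := val_gt_one_of_notMem A haA
  have hva0 : A.valuation a ≠ 0 := (zero_lt_one.trans hva).ne'
  have hne := fun βbar => ratio_sub_const_ne_zero hF hp.two_le c0 cl hj hjp βbar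
  obtain ⟨h1, h2, h3⟩ := cusp_core hF hp.two_le c0 cl hj hjp ha0 hxa hxb (push_const hr haA)
  refine ⟨fun hv => ?_, fun hv => ?_, h3⟩
  · have hb0 : b ≠ 0 := by
      rintro rfl
      rw [map_zero] at hv
      exact hva0 (pow_eq_zero_iff (hp.ne_zero) |>.mp hv.symm)
    have hβ : A.valuation (b / a ^ p) = 1 := by
      rw [map_div₀, map_pow, hv, div_self (pow_ne_zero p hva0)]
    obtain ⟨β, hβe, hβr⟩ := exists_unit_of_val_eq_one A hβ
    refine h1 hb0 ⟨IsLocalRing.residue A β, hβr, ?_⟩
    have h4 := push_ratio hr p 1 dvd_rfl (one_dvd p) p β (hne _).1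
    rwa [hβe] at h4
  · have hb0 : b ≠ 0 := by
      rintro rfl
      rw [map_zero, zero_pow hp.ne_zero] at hv
      exact hva0 hv
    have hvb0 : A.valuation b ≠ 0 := (map_ne_zero _).mpr hb0
    have hβ : A.valuation (a / b ^ p) = 1 := by
      rw [map_div₀, map_pow, hv, div_self (pow_ne_zero p hvb0)]
    obtain ⟨β, hβe, hβr⟩ := exists_unit_of_val_eq_one A hβ
    refine h2 hb0 ⟨IsLocalRing.residue A β, hβr, ?_⟩
    have h4 := push_ratio hr 1 p (one_dvd p) dvd_rfl p β (hne _).2
    rwa [hβe] at h4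

end Main

end Fermat.Agent.ES15C
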