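/-
Cluster E' (helper3): S15 = Mazur's key step, FINAL WIRING.

`s15At_of_descent` : `S15At p` from the two reduction inputs `(B)`, `(F)` and Mazur's descent
`EisDescentAt p l' S` at ONE prime `l'` dividing the order of the cuspidal class:
* an odd prime `l' ∣ p - 1`, or
* `l' = 2` when the order of the cuspidal class is a power of `2` (then `8 ∣ p - 1`).
Everything else (cusps, cuspidal class, moduli point, reduction to the cusps, zero component) is
plugged in here.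
-/
import Fermat.Agent.E.S15.Assembly
import Fermat.Agent.E.S15.CuspDiv
import Fermat.Agent.E.S15.CuspOrder
import Fermat.Agent.E.S15.CuspHecke
import Fermat.Agent.E.S15.CuspRed
import Fermat.Agent.E.S15.ZeroCompOrder
import Fermat.Agent.E.S15.DescWire
import Fermat.Agent.E.MC.MPFinal

set_option autoImplicit false

noncomputable section

namespace Fermat.Agent.ES15

open ModularCurve AlgebraicCurve Fermat.Agent.EDesc

/-- a divisor of `3 * 2 ^ k` which does not divide `12` is divisible by `8`. -/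
theorem eight_dvd_of_dvd_three_mul_two_pow {d k : ℕ} (hd : d ∣ 3 * 2 ^ k) (h12 : ¬ d ∣ 12) :
    8 ∣ d := by
  obtain ⟨d₁, d₂, h₁, h₂, rfl⟩ := (Nat.dvd_mul).mp hd
  obtain ⟨a, -, rfl⟩ := (Nat.dvd_prime_pow Nat.prime_two).mp h₂
  by_cases ha : 3 ≤ a
  · obtain ⟨b, rfl⟩ := Nat.exists_eq_add_of_le ha
    exact Dvd.dvd.mul_left ⟨2 ^ b, by rw [pow_add]; norm_num⟩ d₁
  · exfalso
    apply h12
    have h3 : d₁ = 1 ∨ d₁ = 3 := (Nat.dvd_prime Nat.prime_three).mp h₁
    have ha' : a = 0 ∨ a = 1 ∨ a = 2 := by omega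
    rcases h3 with rfl | rfl <;> rcases ha' with rfl | rfl | rfl <;> norm_num

/-- the choice of the Eisenstein prime: either an odd prime divides `m`, or `2 ∣ m` and
`8 ∣ p - 1`. -/
theorem exists_odd_prime_dvd_or {p m : ℕ} (h12 : ¬ (p - 1) ∣ 12) (h1 : m ≠ 1)
    (hdvd : (p - 1) ∣ 12 * m) :
    (∃ l' : ℕ, l'.Prime ∧ l' ≠ 2 ∧ l' ∣ m) ∨ (2 ∣ m ∧ 8 ∣ p - 1) := by
  rcases Nat.eq_two_pow_or_exists_odd_prime_and_dvd m with ⟨k, rfl⟩ | ⟨l', hl', hlm, hodd⟩
  · right
    have hk : k ≠ 0 := by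
      rintro rfl
      exact h1 (pow_zero 2)
    refine ⟨dvd_pow_self 2 hk, ?_⟩
    apply eight_dvd_of_dvd_three_mul_two_pow (k := k + 2) _ h12
    have : 12 * 2 ^ k = 3 * 2 ^ (k + 2) := by rw [pow_add]; ring
    rw [← this]
    exact hdvd
  · left
    refine ⟨l', hl', ?_, hlm⟩
    rintro rfl
    exact absurd hodd (by decide)

/-- **S15 from the reduction inputs and Mazur's descent.** -/
theorem s15At_of_descent {p : ℕ} [NeZero p] (hp : p.Prime)
    (hp' : p ∉ ({2, 3, 5, 7, 13} : Finset ℕ)) (hB : RedInputs p) (hF : HeckeRedStable p)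
    (hodd : ∀ l' : ℕ, l'.Prime → l' ≠ 2 → l' ∣ p - 1 →
      ∀ S : Finset ℕ, p ∈ S → l' ∈ S → EisDescentAt p l' S)
    (htwo : 8 ∣ p - 1 → ∀ S : Finset ℕ, p ∈ S → 2 ∈ S → EisDescentAt p 2 S) :
    S15At p := by
  have hp'' := hp'
  simp only [Finset.mem_insert, Finset.mem_singleton, not_or] at hp''
  obtain ⟨h2, h3, h5, h7, h13⟩ := hp''
  have h12 : ¬ (p - 1) ∣ 12 := not_pred_dvd_twelve hp h2 h3 h5 h7 h13
  have hD0 : CuspZeroData p := cuspZeroData hp
  obtain ⟨P0, hP0⟩ := hD0.ex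
  have hT : ∀ P0 : Pl p, IsCuspZero p P0 → ∀ r : Nat.Primes, (r : ℕ) ≠ p →
      heckeOperatorBar p r (cuspClass p P0) = (1 + (r : ℕ)) • cuspClass p P0 :=
    fun P0' hP0' r hr => heckeOperatorBar_cuspClass hp hD0 r hr P0' hP0'
  -- divisibility by a prime divisor of the order of the cuspidal class
  have hord : ∀ l' : ℕ, l' ∣ addOrderOf (cuspClass p P0) →
      ∀ P0' : Pl p, IsCuspZero p P0' → ∀ n : ℕ, n • cuspClass p P0' = 0 → l' ∣ n := by
    intro l' hl' P0' hP0' n hn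
    rw [hD0.uniq P0' P0 hP0' hP0] at hn
    exact hl'.trans (addOrderOf_dvd_of_nsmul_eq_zero hn)
  have hne1 : addOrderOf (cuspClass p P0) ≠ 1 := fun h =>
    cuspClass_ne_zero hp h12 hP0 (AddMonoid.addOrderOf_eq_one_iff.mp h)
  have hE : EisensteinDescent p := by
    rcases exists_odd_prime_dvd_or h12 hne1 (dvd_twelve_mul_addOrderOf hp hP0) with
      ⟨l', hl', hl2, hlm⟩ | ⟨h2m, h8⟩
    · exact eisensteinDescent_of p l'
        (hodd l' hl' hl2 (hlm.trans (addOrderOf_cuspClass_dvd hp hP0))) hT (hord l' hlm)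
    · exact eisensteinDescent_of p 2 (htwo h8) hT (hord 2 h2m)
  exact s15_of_inputs hp hp' hD0 (cuspTorsion hp) hB (Fermat.Agent.ES15C.cuspReduction hp) hF
    (zeroCompOrder hp) (Fermat.Agent.EMC.moduliPoint hp h2) hE

end Fermat.Agent.ES15
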