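/-
Cluster E' (Mazur, S15), seat S15-B (helper5): existence of the reduction data
`ModularCurve.ReductionInputsModL A N` (the hypothesis `h` of the frozen S18) at a place `A` of `ℚ̄`
over a prime `ℓ ∤ N`, from Deuring's reduction map (`Deuring.exists_reduction`, helper79) for the
modular Gauss valuation (`GaussInt.modularValSetup`), given GENUS EQUALITY.

* `reductionInputsModL_of_genusFF_eq` : genus equality at `(A, N)` ⇒ `ReductionInputsModL A N`;
* `reductionInputsModL_of_ne` : `ℓ ∉ {2, 3}`, any `N` with `ℓ ∤ N`;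
* `reductionInputsModL_of_four_or_nine` : any `ℓ ∤ N` when `4 ∣ N` or `9 ∣ N`.

OPEN (see the board): genus equality at `ℓ ∈ {2, 3}` for levels `N` with `4 ∤ N`, `9 ∤ N`.
-/
import Mathlib
import Fermat.Agent.Lib.Deuring.Main
import Fermat.Agent.Lib.GaussInt.ModularInst
import Fermat.Prelude.Def_ModularCurve_ReductionModL

set_option autoImplicit false
set_option synthInstance.maxHeartbeats 400000

noncomputable section

namespace Fermat.Agent.ES15

open ModularCurve AlgebraicCurve HahnSeries Fermat.Agent.GaussInt Fermat.Agent.Deuring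
  Fermat.Agent.RR

variable (A : ValuationSubring (AlgebraicClosure ℚ)) (ℓ N : ℕ) [NeZero N]
variable (hℓ : ℓ.Prime) (hA : A.LiesOverPrime ℓ) (hℓN : ¬ ℓ ∣ N)
include hℓ hA hℓN

/-- an integral series of `F_N` with nonzero reduction is a unit of the Gauss ring, with the
coefficientwise reduction as residue. -/
theorem integral_unit (y : LaurentSeries A)
    (hy : coeffMap A.subtype y ∈ modularFunctionFieldBar N)
    (hne : coeffMap (IsLocalRing.residue A) y ≠ 0) :
    let S := modularValSetup A ℓ N hℓ hA hℓN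
    let f : modularFunctionFieldBar N := ⟨coeffMap A.subtype y, hy⟩
    f ∈ S.Ov ∧ f⁻¹ ∈ S.Ov ∧ f ≠ 0 ∧
      ((S.red f : modularFunctionFieldFullC (IsLocalRing.ResidueField A) N) :
        LaurentSeries (IsLocalRing.ResidueField A)) = coeffMap (IsLocalRing.residue A) y := by
  intro S f
  have hmem : (f : LaurentSeries (AlgebraicClosure ℚ)) ∈ gaussSub A (modularFunctionFieldBar N) :=
    emb_mem_gaussSub hy
  have hres : gaussResFun A (modularFunctionFieldBar N) (f : LaurentSeries (AlgebraicClosure ℚ)) =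
      coeffMap (IsLocalRing.residue A) y := gaussResFun_emb hy
  have hred := coe_modularValSetup_red A ℓ N hℓ hA hℓN (f := f) hmem
  have hf0 : f ≠ 0 := by
    intro h0
    apply hne
    have h1 : coeffMap A.subtype y = 0 := congrArg Subtype.val h0
    have h2 : y = 0 := emb_injective A (by rw [h1, map_zero])
    rw [h2, map_zero]
  have hinv : ((f⁻¹ : modularFunctionFieldBar N) : LaurentSeries (AlgebraicClosure ℚ)) ∈
      gaussSub A (modularFunctionFieldBar N) := by
    have := inv_mem_gaussSub hmem (by rw [hres]; exact hne)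
    simpa using this
  exact ⟨hmem, hinv, hf0, hred.trans hres⟩

/-- **S15-B, conditional form**: genus equality at `(A, N)` gives the reduction data. -/
theorem reductionInputsModL_of_genusFF_eq
    (hg : genusFF (AlgebraicClosure ℚ) (modularFunctionFieldBar N) =
      genusFF (IsLocalRing.ResidueField A)
        (modularFunctionFieldFullC (IsLocalRing.ResidueField A) N)) :
    ReductionInputsModL A N := by
  have hinf : Infinite (IsLocalRing.ResidueField A) := infinite_residue A
  set S := modularValSetup A ℓ N hℓ hA hℓN with hS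
  obtain ⟨r, hpush, -, -⟩ := exists_reduction S (hasLattice_modularValSetup A ℓ N hℓ hA hℓN) hg
  refine ⟨r, ⟨fun P => ?_, ?_⟩, ?_⟩
  · rw [S.hFk.deg_one, S.hF.deg_one]
  · intro y hy hyk hne D hD Q
    obtain ⟨hmem, hinv, hf0, hred⟩ := integral_unit A ℓ N hℓ hA hℓN y hy hne
    have hDf : D = divOf S.hF (⟨coeffMap A.subtype y, hy⟩ : modularFunctionFieldBar N) := by
      ext P
      rw [hD P, divOf_apply]
    have hredeq : S.red (⟨coeffMap A.subtype y, hy⟩ : modularFunctionFieldBar N) =
        ⟨coeffMap (IsLocalRing.residue A) y, hyk⟩ := Subtype.ext hred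
    rw [hDf, hpush _ hmem hinv hf0 Q, hredeq]
  · intro D hD
    obtain ⟨f, hf0, hDf⟩ := hD
    -- write `f = c · u`, `u` a unit of the Gauss ring, `u = Y₁ / Y₂`
    obtain ⟨c, hc0, hu, hu'⟩ := S.scale f hf0
    set u : modularFunctionFieldBar N :=
      f * (algebraMap (AlgebraicClosure ℚ) (modularFunctionFieldBar N) c)⁻¹ with hu_def
    have hcF : algebraMap (AlgebraicClosure ℚ) (modularFunctionFieldBar N) c ≠ 0 :=
      (map_ne_zero (algebraMap (AlgebraicClosure ℚ) (modularFunctionFieldBar N))).mpr hc0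
    have hu0 : u ≠ 0 := mul_ne_zero hf0 (inv_ne_zero hcF)
    have humem : (u : LaurentSeries (AlgebraicClosure ℚ)) ∈
        gaussSub A (modularFunctionFieldBar N) := hu
    obtain ⟨Y₁, Y₂, hY⟩ := humem
    have hY₂0 : emb A Y₂ ≠ 0 := hY.emb_ne_zero
    have hures : S.red u ≠ 0 := S.red_ne_zero hu hu' hu0
    have hY₁red : red A Y₁ ≠ 0 := by
      intro h0
      apply hures
      apply Subtype.ext
      rw [coe_modularValSetup_red A ℓ N hℓ hA hℓN (f := u) ⟨Y₁, Y₂, hY⟩, gaussResFun_eq hY, h0,
        zero_div]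
      rfl
    have hY₁0 : emb A Y₁ ≠ 0 := by
      intro h0
      have : Y₁ = 0 := emb_injective A (by rw [h0, map_zero])
      exact hY₁red (by rw [this, map_zero])
    -- the two integral principal divisors
    set f₁ : modularFunctionFieldBar N := ⟨emb A Y₁, hY.mem₁⟩ with hf₁
    set f₂ : modularFunctionFieldBar N := ⟨emb A Y₂, hY.mem₂⟩ with hf₂
    have hf₁0 : f₁ ≠ 0 := fun h => hY₁0 (congrArg Subtype.val h)
    have hf₂0 : f₂ ≠ 0 := fun h => hY₂0 (congrArg Subtype.val h)
    have hrel : u * f₂ = f₁ := Subtype.ext hY.eq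
    have hmemk : ∀ Y : LaurentSeries A, emb A Y ∈ modularFunctionFieldBar N →
        red A Y ∈ modularFunctionFieldFullC (IsLocalRing.ResidueField A) N := by
      intro Y hYm
      have := Fermat.Agent.GaussVal.gaussResFun_mem_fullC_of_isAlgClosed A ℓ N hℓ hA hℓN _
        (emb_mem_gaussSub hYm)
      rwa [gaussResFun_emb hYm] at this
    have h₁ : divOf S.hF f₁ ∈ integralPrincipalDivisors A (IsLocalRing.residue A) N :=
      ⟨Y₁, hY.mem₁, hmemk Y₁ hY.mem₁, hY₁red, fun P => divOf_apply _ _ _⟩
    have h₂ : divOf S.hF f₂ ∈ integralPrincipalDivisors A (IsLocalRing.residue A) N :=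
      ⟨Y₂, hY.mem₂, hmemk Y₂ hY.mem₂, hY.prim, fun P => divOf_apply _ _ _⟩
    have hD' : D = divOf S.hF f₁ - divOf S.hF f₂ := by
      ext P
      rw [hDf P, Finsupp.sub_apply, divOf_apply, divOf_apply]
      have hfu : f = u * algebraMap (AlgebraicClosure ℚ) (modularFunctionFieldBar N) c := by
        rw [hu_def, inv_mul_cancel_right₀ hcF]
      have h1 : P.ord f = P.ord u := by
        rw [hfu, P.ord_mul hu0 hcF, Fermat.Agent.S24Res.ord_algebraMap, add_zero]
      have h2 : P.ord f₁ = P.ord u + P.ord f₂ := by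
        rw [← hrel, P.ord_mul hu0 hf₂0]
      rw [h1, h2]
      ring
    rw [hD']
    exact AddSubgroup.sub_mem _ (AddSubgroup.subset_closure h₁) (AddSubgroup.subset_closure h₂)

end Fermat.Agent.ES15
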