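/-
Cluster E' (Mazur, S15), seat S15-B (helper5), FINAL: the reduction data
`ModularCurve.ReductionInputsModL A N` of `X₀(N)` at EVERY place `A` of `ℚ̄` over a prime `ℓ ∤ N`
(including `ℓ ∈ {2, 3}`), by transfer of Deuring's reduction from the level `4 N` resp. `9 N`
(package `Lib/RedTr`).

* `reductionInputsModL_of_push` : a map of places with the push property gives the data;
* `reductionInputsModL`         : `ReductionInputsModL A N` for all `ℓ ∤ N`;
* `redInputs`                   : seat (B) of the blueprint, `RedInputs p` for a prime `p`.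
-/
import Mathlib
import Fermat.Agent.E.S15.RedInputs
import Fermat.Agent.E.S15.Interfaces
import Fermat.Agent.Lib.RedTr.ModularMain
import Fermat.Agent.Lib.RedTr.ModularCompat
import Fermat.Agent.Lib.GenusEq.Main

set_option autoImplicit false
set_option synthInstance.maxHeartbeats 400000
set_option linter.style.haveILetI false

noncomputable section

namespace Fermat.Agent.ES15

open ModularCurve AlgebraicCurve HahnSeries Fermat.Agent.GaussInt Fermat.Agent.Deuring
  Fermat.Agent.RR

section Push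

variable (A : ValuationSubring (AlgebraicClosure ℚ)) (ℓ N : ℕ) [NeZero N]
variable (hℓ : ℓ.Prime) (hA : A.LiesOverPrime ℓ) (hℓN : ¬ ℓ ∣ N)
include hℓ hA hℓN

/-- every principal divisor is a difference of two integral principal divisors. -/
theorem principalGeneratedByIntegral :
    PrincipalGeneratedByIntegral A (IsLocalRing.residue A) N := by
  set S := modularValSetup A ℓ N hℓ hA hℓN with hS
  intro D hD
  obtain ⟨f, hf0, hDf⟩ := hD
  obtain ⟨c, hc0, hu, hu'⟩ := S.scale f hf0
  set u : modularFunctionFieldBar N :=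
    f * (algebraMap (AlgebraicClosure ℚ) (modularFunctionFieldBar N) c)⁻¹ with hu_def
  have hcF : algebraMap (AlgebraicClosure ℚ) (modularFunctionFieldBar N) c ≠ 0 :=
    (map_ne_zero (algebraMap (AlgebraicClosure ℚ) (modularFunctionFieldBar N))).mpr hc0
  have hu0 : u ≠ 0 := mul_ne_zero hf0 (inv_ne_zero hcF)
  have humem : (u : LaurentSeries (AlgebraicClosure ℚ)) ∈
      gaussSub A (modularFunctionFieldBar N) := hu
  obtain ⟨Y₁, Y₂, hY⟩ := humem
  have hY₂0 : emb A Y₂ ≠ 0 := hY.emb_ne_zero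
  have hures : S.red u ≠ 0 := S.red_ne_zero hu hu' hu0
  have hY₁red : red A Y₁ ≠ 0 := by
    intro h0
    apply hures
    apply Subtype.ext
    rw [coe_modularValSetup_red A ℓ N hℓ hA hℓN (f := u) ⟨Y₁, Y₂, hY⟩, gaussResFun_eq hY, h0,
      zero_div]
    rfl
  have hY₁0 : emb A Y₁ ≠ 0 := by
    intro h0
    have : Y₁ = 0 := emb_injective A (by rw [h0, map_zero])
    exact hY₁red (by rw [this, map_zero])
  set f₁ : modularFunctionFieldBar N := ⟨emb A Y₁, hY.mem₁⟩ with hf₁
  set f₂ : modularFunctionFieldBar N := ⟨emb A Y₂, hY.mem₂⟩ with hf₂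
  have hf₁0 : f₁ ≠ 0 := fun h => hY₁0 (congrArg Subtype.val h)
  have hf₂0 : f₂ ≠ 0 := fun h => hY₂0 (congrArg Subtype.val h)
  have hrel : u * f₂ = f₁ := Subtype.ext hY.eq
  have hmemk : ∀ Y : LaurentSeries A, emb A Y ∈ modularFunctionFieldBar N →
      red A Y ∈ modularFunctionFieldFullC (IsLocalRing.ResidueField A) N := by
    intro Y hYm
    have := Fermat.Agent.GaussVal.gaussResFun_mem_fullC_of_isAlgClosed A ℓ N hℓ hA hℓN _
      (emb_mem_gaussSub hYm)
    rwa [gaussResFun_emb hYm] at this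
  have h₁ : divOf S.hF f₁ ∈ integralPrincipalDivisors A (IsLocalRing.residue A) N :=
    ⟨Y₁, hY.mem₁, hmemk Y₁ hY.mem₁, hY₁red, fun P => divOf_apply _ _ _⟩
  have h₂ : divOf S.hF f₂ ∈ integralPrincipalDivisors A (IsLocalRing.residue A) N :=
    ⟨Y₂, hY.mem₂, hmemk Y₂ hY.mem₂, hY.prim, fun P => divOf_apply _ _ _⟩
  have hD' : D = divOf S.hF f₁ - divOf S.hF f₂ := by
    ext P
    rw [hDf P, Finsupp.sub_apply, divOf_apply, divOf_apply]
    have hfu : f = u * algebraMap (AlgebraicClosure ℚ) (modularFunctionFieldBar N) c := by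
      rw [hu_def, inv_mul_cancel_right₀ hcF]
    have h1 : P.ord f = P.ord u := by
      rw [hfu, P.ord_mul hu0 hcF, Fermat.Agent.S24Res.ord_algebraMap, add_zero]
    have h2 : P.ord f₁ = P.ord u + P.ord f₂ := by
      rw [← hrel, P.ord_mul hu0 hf₂0]
    rw [h1, h2]
    ring
  rw [hD']
  exact AddSubgroup.sub_mem _ (AddSubgroup.subset_closure h₁) (AddSubgroup.subset_closure h₂)

/-- a map of places with the push property is a place reduction. -/
theorem isPlaceReductionModL_of_push
    (r : Place (AlgebraicClosure ℚ) (modularFunctionFieldBar N) →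
      Place (IsLocalRing.ResidueField A)
        (modularFunctionFieldFullC (IsLocalRing.ResidueField A) N))
    (hpush : Fermat.Agent.RedTr.IsPush (modularValSetup A ℓ N hℓ hA hℓN) r) :
    IsPlaceReductionModL A N r := by
  set S := modularValSetup A ℓ N hℓ hA hℓN with hS
  refine ⟨fun P => ?_, ?_⟩
  · rw [S.hFk.deg_one, S.hF.deg_one]
  · intro y hy hyk hne D hD Q
    obtain ⟨hmem, hinv, hf0, hred⟩ := integral_unit A ℓ N hℓ hA hℓN y hy hne
    have hDf : D = divOf S.hF (⟨coeffMap A.subtype y, hy⟩ : modularFunctionFieldBar N) := by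
      ext P
      rw [hD P, divOf_apply]
    have hredeq : S.red (⟨coeffMap A.subtype y, hy⟩ : modularFunctionFieldBar N) =
        ⟨coeffMap (IsLocalRing.residue A) y, hyk⟩ := Subtype.ext hred
    rw [hDf, hpush _ hmem hinv hf0 Q, hredeq]

/-- the reduction data from a map of places with the push property. -/
theorem reductionInputsModL_of_push
    (r : Place (AlgebraicClosure ℚ) (modularFunctionFieldBar N) →
      Place (IsLocalRing.ResidueField A)
        (modularFunctionFieldFullC (IsLocalRing.ResidueField A) N))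
    (hpush : Fermat.Agent.RedTr.IsPush (modularValSetup A ℓ N hℓ hA hℓN) r) :
    ReductionInputsModL A N :=
  ⟨r, isPlaceReductionModL_of_push A ℓ N hℓ hA hℓN r hpush,
    principalGeneratedByIntegral A ℓ N hℓ hA hℓN⟩

end Push

section Final

variable (A : ValuationSubring (AlgebraicClosure ℚ)) (ℓ N : ℕ) [NeZero N]

/-- an auxiliary level `M` (`= 9 N` for `ℓ = 2`, `= 4 N` otherwise) with genus equality. -/
theorem exists_aux_level (hℓ : ℓ.Prime) (hℓN : ¬ ℓ ∣ N) :
    ∃ M : ℕ, M ≠ 0 ∧ N ∣ M ∧ ¬ ℓ ∣ M ∧ (4 ∣ M ∨ 9 ∣ M) := by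
  have hN0 : N ≠ 0 := NeZero.ne N
  by_cases h2 : ℓ = 2
  · refine ⟨9 * N, mul_ne_zero (by norm_num) hN0, dvd_mul_left N 9, ?_,
      Or.inr (dvd_mul_right 9 N)⟩
    intro h
    rcases (Nat.Prime.dvd_mul hℓ).mp h with h | h
    · rw [h2] at h
      omega
    · exact hℓN h
  · refine ⟨4 * N, mul_ne_zero (by norm_num) hN0, dvd_mul_left N 4, ?_,
      Or.inl (dvd_mul_right 4 N)⟩
    intro h
    rcases (Nat.Prime.dvd_mul hℓ).mp h with h | h
    · have h4 : ℓ ∣ 2 ^ 2 := by
        norm_num
        exact h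
      exact h2 ((Nat.prime_dvd_prime_iff_eq hℓ Nat.prime_two).mp (hℓ.dvd_of_dvd_pow h4))
    · exact hℓN h

/-- **S15-B, final form**: the reduction data of `X₀(N)` exist at every place `A` of `ℚ̄` over a
prime `ℓ ∤ N` (including `ℓ = 2, 3`). -/
theorem reductionInputsModL (hℓ : ℓ.Prime) (hA : A.LiesOverPrime ℓ) (hℓN : ¬ ℓ ∣ N) :
    ReductionInputsModL A N := by
  obtain ⟨M, hM0, hNM, hℓM, h49⟩ := exists_aux_level ℓ N hℓ hℓN
  haveI : NeZero M := ⟨hM0⟩
  have hg := Fermat.Agent.GenusEq.genusFF_eq M h49 ℓ hℓ hℓM A hA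
  obtain ⟨rE, hpush⟩ := Fermat.Agent.RedTr.exists_isPush_modular_of_compat A ℓ N M hℓ hA hℓN hℓM
    hNM _ (Fermat.Agent.RedTr.mc_compat A ℓ N M hℓ hA hℓN hℓM hNM) hg
  exact reductionInputsModL_of_push A ℓ N hℓ hA hℓN rE hpush

/-- **seat (B)** of the blueprint of cluster E'. -/
theorem redInputs (p : ℕ) (hp : p.Prime) : RedInputs p := by
  haveI : NeZero p := ⟨hp.ne_zero⟩
  intro ℓ hℓ hℓp A hA
  exact reductionInputsModL A ℓ p hℓ hA
    (fun h => hℓp ((Nat.prime_dvd_prime_iff_eq hℓ hp).mp h))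

end Final

end Fermat.Agent.ES15
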