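/-
Cluster E' (helper3): S15 = Mazur's key step, FINAL WIRING, part 2.

`fa_descent_odd`, `fa_descent_two` : Mazur's descent `EisDescentAt p l' S` from DESC-MAIN with
every landed input plugged in; `s15At_of_open` : `S15At p` from the inputs which are still open.
-/
import Fermat.Agent.E.S15.Final
import Fermat.Agent.E.S15.RedInputsAll
import Fermat.Agent.E.Desc.Main
import Fermat.Agent.E.Desc.Eis
import Fermat.Agent.E.Desc.FlatAsmK
import Fermat.Agent.E.Desc.ToricFinal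
import Fermat.Agent.E.Desc.W.Main
import Fermat.Agent.E.Desc.W.ThetaConj
import Fermat.Agent.S17.H.Final
import Fermat.Agent.E.Desc.Kp.Defs

set_option autoImplicit false

noncomputable section

namespace Fermat.Agent.ES15

open ModularCurve AlgebraicCurve Fermat.Agent.EDesc Fermat.Agent.EDescW

/-- a prime divisor of `p - 1` is prime to `p`. -/
theorem fa_prime_ne_of_dvd_pred {p l' : ℕ} (hp : p.Prime) (hl : l'.Prime) (h : l' ∣ p - 1) :
    p ≠ l' ∧ ¬ l' ∣ p := by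
  have hp1 : 0 < p - 1 := Nat.sub_pos_of_lt hp.one_lt
  have hle : l' ≤ p - 1 := Nat.le_of_dvd hp1 h
  have hne : p ≠ l' := by omega
  exact ⟨hne, fun hd => hne ((Nat.prime_dvd_prime_iff_eq hl hp).mp hd).symm⟩

/-- the primes outside `S ∋ p` do not divide `p`. -/
theorem fa_out_not_dvd {p : ℕ} (hp : p.Prime) {S : Finset ℕ} (hpS : p ∈ S) (r : Nat.Primes)
    (hr : (r : ℕ) ∉ S) : ¬ (r : ℕ) ∣ p := fun hd =>
  hr (((Nat.prime_dvd_prime_iff_eq r.2 hp).mp hd) ▸ hpS)

/-- **(K-p)** in the form used by DESC-MAIN. -/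
theorem fa_eisKp_of_kp {p l' : ℕ} [NeZero p] (hp : p.Prime) (hl : l'.Prime) (hne : p ≠ l')
    (h : Fermat.Agent.EKp.KpStatement p) : EisKp p l' := by
  obtain ⟨m, hm, h⟩ := h.exists_cob
  refine ⟨m, hm, fun k P R hP hR Ap hAp => ?_⟩
  have hpn : ¬ p ∣ l' ^ k := fun hd =>
    hne ((Nat.prime_dvd_prime_iff_eq hp hl).mp (hp.dvd_of_dvd_pow hd))
  exact h Ap hAp P hP (l' ^ k) (pow_pos hl.pos k) hpn R hR

/-- **Mazur's descent at an odd Eisenstein prime** `l' ∣ p - 1`. -/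
theorem fa_descent_odd {p : ℕ} [NeZero p] (hp : p.Prime) {l' : ℕ} (hl : l'.Prime)
    (hl2 : l' ≠ 2) (hlp : l' ∣ p - 1) (S : Finset ℕ) (hpS : p ∈ S) (hlS : l' ∈ S)
    (hPar : ParStatement p) (hSwap : SwapStatement p) (hKp : EisKp p l') :
    EisDescentAt p l' S := by
  haveI : Fact l'.Prime := ⟨hl⟩
  obtain ⟨hne, hnd⟩ := fa_prime_ne_of_dvd_pred hp hl hlp
  exact desc_main p hp l' hl hne S hpS hlS (Fermat.Agent.S17.mw_fg p)
    (eisIdem_prime hl.ne_zero hp hpS)
    (eisLocal_of p hl (eisChain_prime hp hpS hlS)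
      (eisOrd_of (fun _ _ _ h => isTheta_conj h) hPar hSwap hl hl2 (fa_out_not_dvd hp hpS))
      (eisFlat_odd hl hl2 hnd S))
    (eisToric p hp l' hne S) hKp

/-- **Mazur's descent at `l' = 2`** (real-place route). -/
theorem fa_descent_two {p : ℕ} [NeZero p] (hp : p.Prime) (h2 : p ≠ 2) (S : Finset ℕ)
    (hpS : p ∈ S) (h2S : 2 ∈ S) (hLoc : EisLocalTw p complexConjugation 2 S)
    (hKp : EisKp p 2) : EisDescentAt p 2 S := by
  haveI : Fact (2 : ℕ).Prime := ⟨Nat.prime_two⟩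
  exact desc_main_tw p hp 2 Nat.prime_two h2 S hpS h2S complexConjugation
    (Fermat.Agent.S17.mw_fg p) (eisIdem_prime two_ne_zero hp hpS) hLoc
    (eisToric p hp 2 h2 S) hKp

/-- **S15 from the open inputs**: `(F)`, W-PAR, W-SWAP, K-p, and the local condition at `2`. -/
theorem s15At_of_open {p : ℕ} [NeZero p] (hp : p.Prime)
    (hp' : p ∉ ({2, 3, 5, 7, 13} : Finset ℕ)) (hF : HeckeRedStable p)
    (hPar : ParStatement p) (hSwap : SwapStatement p)
    (hKp : Fermat.Agent.EKp.KpStatement p)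
    (hLoc : 8 ∣ p - 1 → ∀ S : Finset ℕ, p ∈ S → 2 ∈ S →
      EisLocalTw p complexConjugation 2 S) :
    S15At p := by
  have h2 : p ≠ 2 := fun h => hp' (by rw [h]; decide)
  refine s15At_of_descent hp hp' (redInputs p hp) hF ?_ ?_
  · intro l' hl hl2 hlp S hpS hlS
    exact fa_descent_odd hp hl hl2 hlp S hpS hlS hPar hSwap
      (fa_eisKp_of_kp hp hl (fa_prime_ne_of_dvd_pred hp hl hlp).1 hKp)
  · intro h8 S hpS h2S
    exact fa_descent_two hp h2 S hpS h2S (hLoc h8 S hpS h2S)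
      (fa_eisKp_of_kp hp Nat.prime_two h2 hKp)

end Fermat.Agent.ES15
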