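/-
Cluster E' (helper3): S15 = Mazur's key step, FINAL WIRING, part 3.

`s15At_of_three` : `S15At p` from the last inputs: `(F)` (the kernel of the reduction is stable
under the Hecke operators), and (K-p); the inputs of DESC-W and the local condition at `2` are
plugged in.
-/
import Fermat.Agent.E.S15.FinalAll
import Fermat.Agent.E.Desc.LocalTw2
import Fermat.Agent.E.Desc.W.Final
import Fermat.Agent.E.Desc.W.SwapAll

set_option autoImplicit false

noncomputable section

namespace Fermat.Agent.ES15

open ModularCurve AlgebraicCurve Fermat.Agent.EDesc Fermat.Agent.EDescW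

/-- **S15 from `(F)` and (K-p).** -/
theorem s15At_of_two {p : ℕ} [NeZero p] (hp : p.Prime)
    (hp' : p ∉ ({2, 3, 5, 7, 13} : Finset ℕ)) (hF : HeckeRedStable p)
    (hKp : Fermat.Agent.EKp.KpStatement p) : S15At p := by
  have hPar : ParStatement p := parStatement p
  have hSwap : SwapStatement p := swapStatement_all p
  refine s15At_of_open hp hp' hF hPar hSwap hKp fun h8 S hpS h2S => ?_
  haveI : Fact (2 : ℕ).Prime := ⟨Nat.prime_two⟩
  have h4 : p % 4 = 1 := by
    have := hp.two_le
    omega
  exact eisLocalTw_two hp h4 (eisChain_prime hp hpS h2S)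
    (eisReal_of_swap hSwap Nat.prime_two (fa_out_not_dvd hp hpS))

end Fermat.Agent.ES15
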