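/-
Cluster E' (Mazur, S15), seat S15-F (helper79): the kernel of the reduction of divisor classes is
stable under a correspondence.  ABSTRACT CORE.

Setting: function fields `E`, `E'`, `F` over `K` with constant reductions `SE` (of `E`) and `SF`
(of `F`), `α β : E → E'` the two maps of the correspondence `T = α_* β^*`, and `ι : E' → F` a
finite cover ("top level") with a map of places `r` having the push property; `rE` a map of places
of `E` compatible with `r` along `ι ∘ α`, with the push property (package RedTr).  Then, if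
`Pic⁰(E)` is divisible,

  `r₀_* D = 0`  ⟹  `r₀_* (T D) = 0`

for every divisor `D` of degree `0` and every map of places `r₀` of `E` with the push property.

Proof: `rE_* ∘ (ια)_* ∘ (ιβ)^*` and `(ια)k_* ∘ (ιβ)k^* ∘ rE_*` agree on principal divisors (push at
both levels), hence on divisors of degree `0` (divisibility trick of the Prelude's
`IsPlaceReductionAlong.eq_or_const_of_agree`), and `(ια)_* (ιβ)^* = [F : E'] • α_* β^*`.
-/
import Mathlib
import Fermat.Agent.Lib.RedTr.PushDown
import Fermat.Agent.E.Desc.Comm.Functorial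

set_option autoImplicit false
set_option linter.style.haveILetI false
set_option linter.unusedSectionVars false

noncomputable section

open AlgebraicCurve Fermat.Agent.RR Fermat.Agent.Deuring Fermat.Agent.FF Fermat.Agent.RedTr

namespace Fermat.Agent.ES15

variable {K E F k Ek Fk : Type*} [Field K] [Field E] [Field F] [Algebra K E] [Algebra K F]
  [Field k] [Field Ek] [Field Fk] [Algebra k Ek] [Algebra k Fk]

/-- the push property, as an identity of divisors. -/
theorem heckeRed_redDiv_divOf {S : ValSetup K E k Ek} {r : Place K E → Place k Ek}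
    (hr : IsPush S r) {f : E} (hf : f ∈ S.Ov) (hinv : f⁻¹ ∈ S.Ov) (hf0 : f ≠ 0) :
    redDiv r (divOf S.hF f) = divOf S.hFk (S.red f) := by
  ext Q
  rw [divOf_apply]
  exact hr f hf hinv hf0 Q

/-- every principal divisor is the divisor of a unit of the valuation ring. -/
theorem heckeRed_exists_unit (S : ValSetup K E k Ek) {D : Divisor K E}
    (hD : D ∈ Divisor.principal (K := K) (F := E)) :
    ∃ u : E, u ∈ S.Ov ∧ u⁻¹ ∈ S.Ov ∧ u ≠ 0 ∧ D = divOf S.hF u := by
  obtain ⟨f, hf, hfD⟩ := hD
  obtain ⟨c, hc, hu, hui⟩ := S.scale f hf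
  have hc' : algebraMap K E c ≠ 0 := by
    rwa [Ne, map_eq_zero]
  have hu0 : f * (algebraMap K E c)⁻¹ ≠ 0 := mul_ne_zero hf (inv_ne_zero hc')
  refine ⟨f * (algebraMap K E c)⁻¹, hu, hui, hu0, ?_⟩
  ext v
  rw [hfD v, divOf_apply, v.ord_mul hf (inv_ne_zero hc'), v.ord_inv,
    Fermat.Agent.S24Res.ord_algebraMap]
  simp

private theorem heckeRed_int_eq_zero {a : ℤ} (h : ∀ n : ℕ, n ≠ 0 → (n : ℤ) ∣ a) : a = 0 :=
  Int.eq_zero_of_dvd_of_natAbs_lt_natAbs (h (a.natAbs + 1) (Nat.succ_ne_zero _))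
    (by rw [Int.natAbs_natCast]; exact Nat.lt_succ_self _)

/-- **the divisibility trick**: an additive map on divisors, with values in a group of divisors,
which kills the principal divisors kills the divisors of degree `0`, if `Pic⁰` is divisible. -/
theorem heckeRed_eq_zero_of_principal (δ : Divisor K E →+ Divisor k Ek)
    (hδ : ∀ D ∈ Divisor.principal (K := K) (F := E), δ D = 0)
    (hdiv : ∀ n : ℕ, n ≠ 0 → ∀ x : Pic0 K E, ∃ y : Pic0 K E, n • y = x)
    {D : Divisor K E} (hD : D ∈ Divisor.degZero (K := K) (F := E)) : δ D = 0 := by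
  ext Q
  rw [Finsupp.zero_apply]
  refine heckeRed_int_eq_zero fun n hn => ?_
  obtain ⟨y, hy⟩ := hdiv n hn (Pic0.mk ⟨D, hD⟩)
  obtain ⟨B, rfl⟩ := Pic0.mk_surjective y
  have hmem : ((⟨D, hD⟩ : Divisor.degZero (K := K) (F := E)) - n • B :
      Divisor.degZero (K := K) (F := E)) ∈
        (Divisor.principal (K := K) (F := E)).addSubgroupOf
          (Divisor.degZero (K := K) (F := E)) := by
    rw [← QuotientAddGroup.eq_iff_sub_mem, QuotientAddGroup.mk_nsmul]
    exact hy.symm
  rw [AddSubgroup.mem_addSubgroupOf, AddSubgroupClass.coe_sub, AddSubgroupClass.coe_nsmul] at hmem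
  have h0 := hδ _ hmem
  rw [map_sub, map_nsmul, sub_eq_zero] at h0
  refine ⟨δ (B : Divisor K E) Q, ?_⟩
  rw [h0, Finsupp.smul_apply, nsmul_eq_mul]

/-- two maps of places with the push property induce the same map on divisors of degree `0`. -/
theorem heckeRed_redDiv_eq (S : ValSetup K E k Ek) {r₁ r₂ : Place K E → Place k Ek}
    (h₁ : IsPush S r₁) (h₂ : IsPush S r₂)
    (hdiv : ∀ n : ℕ, n ≠ 0 → ∀ x : Pic0 K E, ∃ y : Pic0 K E, n • y = x)
    {D : Divisor K E} (hD : D ∈ Divisor.degZero (K := K) (F := E)) :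
    redDiv r₁ D = redDiv r₂ D := by
  have h := heckeRed_eq_zero_of_principal (redDiv r₁ - redDiv r₂) (fun B hB => by
    obtain ⟨u, hu, hui, hu0, rfl⟩ := heckeRed_exists_unit S hB
    rw [AddMonoidHom.sub_apply, heckeRed_redDiv_divOf h₁ hu hui hu0,
      heckeRed_redDiv_divOf h₂ hu hui hu0, sub_self]) hdiv hD
  rwa [AddMonoidHom.sub_apply, sub_eq_zero] at h

section Comm

variable {SE : ValSetup K E k Ek} {SF : ValSetup K F k Fk}
  [HasPrincipalDivisors K F] [HasPrincipalDivisors k Fk]
  {a b : E →ₐ[K] F} {ak bk : Ek →ₐ[k] Fk}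
  {ha : a.toRingHom.IsIntegral} {hb : b.toRingHom.IsIntegral}
  {hak : ak.toRingHom.IsIntegral} {hbk : bk.toRingHom.IsIntegral}
  {r : Place K F → Place k Fk} {rE : Place K E → Place k Ek}

/-- the reduction commutes with the correspondence `a_* b^*` on divisors of units. -/
theorem heckeRed_comm_unit (hr : IsPush SF r) (hrE : IsPush SE rE)
    (hcompat : ∀ P' : Place K F, rE (P'.restrictAlong a ha) = (r P').restrictAlong ak hak)
    (hb_mem : ∀ f : E, f ∈ SE.Ov → b f ∈ SF.Ov)
    (hb_red : ∀ f : E, f ∈ SE.Ov → SF.red (b f) = bk (SE.red f))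
    {f : E} (hf : f ∈ SE.Ov) (hfinv : f⁻¹ ∈ SE.Ov) (hf0 : f ≠ 0) :
    redDiv rE (Divisor.pushforwardAlong a ha (Divisor.pullbackAlong b hb (divOf SE.hF f))) =
      Divisor.pushforwardAlong ak hak
        (Divisor.pullbackAlong bk hbk (redDiv rE (divOf SE.hF f))) := by
  have hbf : b f ∈ SF.Ov := hb_mem f hf
  have hbfi : (b f)⁻¹ ∈ SF.Ov := by
    rw [← map_inv₀]
    exact hb_mem _ hfinv
  have hbf0 : b f ≠ 0 := (map_ne_zero b).mpr hf0
  rw [pullbackAlong_divOf SE.hF SF.hF b hb f, ← pushDown_comm SF.hF SF.hFk hcompat,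
    heckeRed_redDiv_divOf hr hbf hbfi hbf0, hb_red f hf, heckeRed_redDiv_divOf hrE hf hfinv hf0,
    pullbackAlong_divOf SE.hFk SF.hFk bk hbk]

/-- the reduction commutes with the correspondence `a_* b^*` on divisors of degree `0`. -/
theorem heckeRed_comm (hr : IsPush SF r) (hrE : IsPush SE rE)
    (hcompat : ∀ P' : Place K F, rE (P'.restrictAlong a ha) = (r P').restrictAlong ak hak)
    (hb_mem : ∀ f : E, f ∈ SE.Ov → b f ∈ SF.Ov)
    (hb_red : ∀ f : E, f ∈ SE.Ov → SF.red (b f) = bk (SE.red f))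
    (hdiv : ∀ n : ℕ, n ≠ 0 → ∀ x : Pic0 K E, ∃ y : Pic0 K E, n • y = x)
    {D : Divisor K E} (hD : D ∈ Divisor.degZero (K := K) (F := E)) :
    redDiv rE (Divisor.pushforwardAlong a ha (Divisor.pullbackAlong b hb D)) =
      Divisor.pushforwardAlong ak hak (Divisor.pullbackAlong bk hbk (redDiv rE D)) := by
  have h := heckeRed_eq_zero_of_principal
    (((redDiv rE).comp ((Divisor.pushforwardAlong a ha).comp (Divisor.pullbackAlong b hb))) -
      ((Divisor.pushforwardAlong ak hak).comp ((Divisor.pullbackAlong bk hbk).comp (redDiv rE))))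
    (fun B hB => by
      obtain ⟨u, hu, hui, hu0, rfl⟩ := heckeRed_exists_unit SE hB
      rw [AddMonoidHom.sub_apply, sub_eq_zero]
      exact heckeRed_comm_unit (hb := hb) (hbk := hbk) hr hrE hcompat hb_mem hb_red hu hui hu0)
    hdiv hD
  rw [AddMonoidHom.sub_apply, sub_eq_zero] at h
  exact h

end Comm

section Stable

variable {E' : Type*} [Field E'] [Algebra K E']
  {SE : ValSetup K E k Ek} {SF : ValSetup K F k Fk}
  [HasPrincipalDivisors K E'] [HasPrincipalDivisors K F] [HasPrincipalDivisors k Fk]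
  {α β : E →ₐ[K] E'} {ι : E' →ₐ[K] F} {ak bk : Ek →ₐ[k] Fk}
  {hα : α.toRingHom.IsIntegral} {hβ : β.toRingHom.IsIntegral} {hι : ι.toRingHom.IsIntegral}
  {hak : ak.toRingHom.IsIntegral}
  {r : Place K F → Place k Fk} {rE r₀ : Place K E → Place k Ek}

/-- `(ι α)_* (ι β)^* = [F : E'] • α_* β^*`. -/
theorem heckeRed_top (hE' : IsRRField K E') (hE : IsRRField K E) (hF : IsRRField K F)
    (hFIι : FundamentalIdentityAlong K ι hι) (D : Divisor K E) :
    Divisor.pushforwardAlong (ι.comp α) (Fermat.Agent.EDescComm.isIntegral_comp α ι hα hι)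
        (Divisor.pullbackAlong (ι.comp β) (Fermat.Agent.EDescComm.isIntegral_comp β ι hβ hι) D) =
      finrankAlong K ι • Divisor.correspondence β α hβ hα D := by
  rw [Fermat.Agent.EDescComm.pushforwardAlong_comp α ι hα hι _ hE.deg_one hE'.deg_one hF.deg_one,
    Fermat.Agent.EDescComm.pullbackAlong_comp β ι hβ hι,
    pushforwardAlong_pullbackAlong hE' hF ι hι hFIι, map_nsmul, Divisor.correspondence_apply]

/-- **S15-F, abstract form**: the kernel of the reduction is stable under the correspondence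
`T = α_* β^*`. -/
theorem heckeRed_stable (hE' : IsRRField K E') (hbk : bk.toRingHom.IsIntegral)
    (hFIι : FundamentalIdentityAlong K ι hι) (hfinι : FiniteAlong K ι)
    (hr : IsPush SF r) (hrE : IsPush SE rE)
    (hcompat : ∀ P' : Place K F,
      rE (P'.restrictAlong (ι.comp α) (Fermat.Agent.EDescComm.isIntegral_comp α ι hα hι)) =
        (r P').restrictAlong ak hak)
    (hb_mem : ∀ f : E, f ∈ SE.Ov → ι (β f) ∈ SF.Ov)
    (hb_red : ∀ f : E, f ∈ SE.Ov → SF.red (ι (β f)) = bk (SE.red f))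
    (hdiv : ∀ n : ℕ, n ≠ 0 → ∀ x : Pic0 K E, ∃ y : Pic0 K E, n • y = x)
    (hr₀ : IsPush SE r₀)
    {D : Divisor K E} (hD : D ∈ Divisor.degZero (K := K) (F := E))
    (hTD : Divisor.correspondence β α hβ hα D ∈ Divisor.degZero (K := K) (F := E))
    (h0 : redDiv r₀ D = 0) :
    redDiv r₀ (Divisor.correspondence β α hβ hα D) = 0 := by
  have hD0 : redDiv rE D = 0 := by
    rw [heckeRed_redDiv_eq SE hrE hr₀ hdiv hD, h0]
  have h1 := heckeRed_comm (SE := SE) (SF := SF) (a := ι.comp α) (b := ι.comp β) (ak := ak)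
    (bk := bk) (ha := Fermat.Agent.EDescComm.isIntegral_comp α ι hα hι)
    (hb := Fermat.Agent.EDescComm.isIntegral_comp β ι hβ hι) (hak := hak) (hbk := hbk)
    hr hrE hcompat hb_mem hb_red hdiv hD
  rw [hD0, map_zero, map_zero, heckeRed_top hE' SE.hF SF.hF hFIι, map_nsmul] at h1
  have hpos : finrankAlong K ι ≠ 0 := by
    letI := algebraAlong ι
    haveI : Module.Finite E' F := hfinι
    exact (Module.finrank_pos (R := E') (M := F)).ne'
  have h2 : redDiv rE (Divisor.correspondence β α hβ hα D) = 0 := by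
    rcases smul_eq_zero.mp h1 with h | h
    · exact absurd h hpos
    · exact h
  rw [heckeRed_redDiv_eq SE hr₀ hrE hdiv hTD, h2]

end Stable

end Fermat.Agent.ES15
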