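/-
Cluster E' (Mazur, S15), seat S15-F (helper79): the kernel of the reduction `J₀(p)(ℚ̄) → J₀(p)(k)`
at a place `A` over `ℓ ∤ p` is stable under the Hecke operators `T_r`, `r ≠ ℓ` --
through the top level `M = p r c`, `c ∈ {4, 9}` prime to `ℓ` (genus equality holds at level `M`,
package RedTr transfers Deuring's reduction from level `M` to level `p`).
-/
import Mathlib
import Fermat.Agent.E.S15.HeckeRedMod
import Fermat.Agent.E.S15.Interfaces
import Fermat.Agent.Lib.RedTr.Final
import Fermat.Agent.Lib.RedTr.ModularCompat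
import Fermat.Agent.Lib.RedTr.NormDeg
import Fermat.Agent.Lib.GenusEq.Main
import Fermat.Agent.Lib.Div.Inst
import Fermat.Agent.Lib.HeckeInputs.Qbar

set_option autoImplicit false
set_option linter.style.haveILetI false
set_option linter.unusedSectionVars false
set_option synthInstance.maxHeartbeats 400000

noncomputable section

open AlgebraicCurve ModularCurve HahnSeries Fermat.Agent.RR Fermat.Agent.Deuring Fermat.Agent.FF
  Fermat.Agent.RedTr Fermat.Agent.GaussInt

namespace Fermat.Agent.ES15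

local notation "Qb" => AlgebraicClosure ℚ

/-- the top level. -/
def heckeRedTop (ℓ p r : ℕ) : ℕ := p * r * (if ℓ = 3 then 4 else 9)

theorem heckeRedTop_ne_zero (ℓ p r : ℕ) [NeZero p] [NeZero r] : heckeRedTop ℓ p r ≠ 0 := by
  unfold heckeRedTop
  have hp := NeZero.ne p
  have hr := NeZero.ne r
  split_ifs <;> positivity

theorem heckeRedTop_dvd (ℓ p r : ℕ) : p * r ∣ heckeRedTop ℓ p r := Dvd.intro _ rfl

theorem heckeRedTop_dvd' (ℓ p r : ℕ) : p ∣ heckeRedTop ℓ p r :=
  (Dvd.intro _ rfl).trans (heckeRedTop_dvd ℓ p r)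

theorem heckeRedTop_four_or_nine (ℓ p r : ℕ) :
    4 ∣ heckeRedTop ℓ p r ∨ 9 ∣ heckeRedTop ℓ p r := by
  unfold heckeRedTop
  split_ifs
  · exact Or.inl (Dvd.intro_left _ rfl)
  · exact Or.inr (Dvd.intro_left _ rfl)

theorem heckeRedTop_not_dvd {ℓ p r : ℕ} (hℓ : ℓ.Prime) (hr : r.Prime) (hℓp : ¬ ℓ ∣ p)
    (hrℓ : r ≠ ℓ) : ¬ ℓ ∣ heckeRedTop ℓ p r := by
  unfold heckeRedTop
  intro h
  rcases (Nat.Prime.dvd_mul hℓ).mp h with h1 | h1
  · rcases (Nat.Prime.dvd_mul hℓ).mp h1 with h2 | h2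
    · exact hℓp h2
    · exact hrℓ ((Nat.prime_dvd_prime_iff_eq hℓ hr).mp h2).symm
  · split_ifs at h1 with h3
    · subst h3
      omega
    · have h4 : ℓ ∣ 3 ^ 2 := by simpa using h1
      have h5 := hℓ.dvd_of_dvd_pow h4
      exact h3 ((Nat.prime_dvd_prime_iff_eq hℓ Nat.prime_three).mp h5)

section Transfer

theorem heckeRed_inclC_isIntegral (A : ValuationSubring Qb) (ℓ N M : ℕ) [NeZero N] [NeZero M]
    (hℓ : ℓ.Prime) (hA : A.LiesOverPrime ℓ) (hℓN : ¬ ℓ ∣ N) (hℓM : ¬ ℓ ∣ M) (h : N ∣ M) :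
    (mc_inclC (IsLocalRing.ResidueField A) h).toRingHom.IsIntegral :=
  isIntegral_of_finiteAlong (φ := mc_inclC (IsLocalRing.ResidueField A) h)
    (mc_compat A ℓ N M hℓ hA hℓN hℓM h).finite_k

/-- the reduction of the places of level `N` transferred from Deuring's reduction at level `M`. -/
theorem heckeRed_exists_rE (A : ValuationSubring Qb) (ℓ N M : ℕ) [NeZero N] [NeZero M]
    (hℓ : ℓ.Prime) (hA : A.LiesOverPrime ℓ) (hℓN : ¬ ℓ ∣ N) (hℓM : ¬ ℓ ∣ M) (h : N ∣ M)
    (hg : genusFF Qb (modularFunctionFieldBar M) =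
      genusFF (IsLocalRing.ResidueField A)
        (modularFunctionFieldFullC (IsLocalRing.ResidueField A) M)) :
    ∃ rE : Place Qb (modularFunctionFieldBar N) →
        Place (IsLocalRing.ResidueField A)
          (modularFunctionFieldFullC (IsLocalRing.ResidueField A) N),
      IsPush (modularValSetup A ℓ N hℓ hA hℓN) rE ∧
      ∀ P' : Place Qb (modularFunctionFieldBar M),
        rE (P'.restrictAlong (Fermat.Agent.F3T.inclBar h)
            (Fermat.Agent.F3T.inclBar_isIntegral h)) =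
          (redPlace A ℓ M hℓ hA hℓM hg P').restrictAlong
            (mc_inclC (IsLocalRing.ResidueField A) h)
            (heckeRed_inclC_isIntegral A ℓ N M hℓ hA hℓN hℓM h) := by
  have hN2 : NormDegLe (modularValSetup A ℓ N hℓ hA hℓN) (modularValSetup A ℓ M hℓ hA hℓM)
      (Fermat.Agent.F3T.inclBar h) :=
    normDegLe _ _ _ (Fermat.Agent.S24.isFunctionFieldOver_jBar N)
      (Fermat.Agent.S24.isFunctionFieldOver_jBar M)
  exact exists_isPush_compatible (mc_compat A ℓ N M hℓ hA hℓN hℓM h) hN2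
    (isReduction_redPlace A ℓ M hℓ hA hℓM hg) hg (Fermat.Agent.F3T.inclBar_isIntegral h)
    (heckeRed_inclC_isIntegral A ℓ N M hℓ hA hℓN hℓM h)

end Transfer

section Main

/-- the inclusion of level `p` into the top level factors through level `p r`. -/
theorem heckeRed_incl_comp_alpha (p r M : ℕ) [NeZero p] [NeZero r] [NeZero M] [NeZero (p * r)]
    (h1 : p * r ∣ M) (h2 : p ∣ M) :
    (Fermat.Agent.F3T.inclBar h1).comp (heckeAlphaBar Qb p r) = Fermat.Agent.F3T.inclBar h2 := by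
  refine AlgHom.ext fun x => Subtype.ext ?_
  rw [AlgHom.comp_apply, Fermat.Agent.F3T.coe_inclBar, Fermat.Agent.F3T.coe_inclBar,
    coe_heckeAlphaBar]

set_option maxHeartbeats 1600000 in
/-- **S15-F, divisor form**: if the reduction of `D` (degree `0`) is `0`, so is the reduction of
`T_r D`, for every map of places `r₀` of level `p` with the push property. -/
theorem heckeRed_divisor (p : ℕ) [NeZero p] (A : ValuationSubring Qb) (ℓ : ℕ) (hℓ : ℓ.Prime)
    (hA : A.LiesOverPrime ℓ) (hℓp : ¬ ℓ ∣ p) (r : ℕ) [NeZero r] (M : ℕ) [NeZero M]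
    (hℓM : ¬ ℓ ∣ M) (h1 : p * r ∣ M) (h2 : p ∣ M) [NeZero (p * r)]
    [HasPrincipalDivisors Qb (modularFunctionFieldBar (p * r))]
    (hg : genusFF Qb (modularFunctionFieldBar M) =
      genusFF (IsLocalRing.ResidueField A)
        (modularFunctionFieldFullC (IsLocalRing.ResidueField A) M))
    (hα : HeckeAlphaBarIntegral Qb p r) (hβ : HeckeBetaBarIntegral Qb p r)
    {r₀ : Place Qb (modularFunctionFieldBar p) →
      Place (IsLocalRing.ResidueField A)
        (modularFunctionFieldFullC (IsLocalRing.ResidueField A) p)}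
    (hr₀ : IsPush (modularValSetup A ℓ p hℓ hA hℓp) r₀)
    {D : Divisor Qb (modularFunctionFieldBar p)}
    (hD : D ∈ Divisor.degZero (K := Qb) (F := modularFunctionFieldBar p))
    (hTD : Divisor.correspondence (heckeBetaBar Qb p r) (heckeAlphaBar Qb p r) hβ hα D ∈
      Divisor.degZero (K := Qb) (F := modularFunctionFieldBar p))
    (hD0 : redDiv r₀ D = 0) :
    redDiv r₀ (Divisor.correspondence (heckeBetaBar Qb p r) (heckeAlphaBar Qb p r) hβ hα D) =
      0 := by
  haveI : HasPrincipalDivisors Qb (modularFunctionFieldBar M) :=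
    hasPD (modularValSetup A ℓ M hℓ hA hℓM).hF
  haveI : HasPrincipalDivisors (IsLocalRing.ResidueField A)
      (modularFunctionFieldFullC (IsLocalRing.ResidueField A) M) :=
    hasPD (modularValSetup A ℓ M hℓ hA hℓM).hFk
  obtain ⟨rE, hrE, hcompat⟩ := heckeRed_exists_rE A ℓ p M hℓ hA hℓp hℓM h2 hg
  have hι : (Fermat.Agent.F3T.inclBar h1).toRingHom.IsIntegral :=
    Fermat.Agent.F3T.inclBar_isIntegral h1
  have hια : (Fermat.Agent.F3T.inclBar h1).comp (heckeAlphaBar Qb p r) =
      Fermat.Agent.F3T.inclBar h2 := heckeRed_incl_comp_alpha p r M h1 h2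
  have hcompat' : ∀ P' : Place Qb (modularFunctionFieldBar M),
      rE (P'.restrictAlong ((Fermat.Agent.F3T.inclBar h1).comp (heckeAlphaBar Qb p r))
        (Fermat.Agent.EDescComm.isIntegral_comp _ _ hα hι)) =
        (redPlace A ℓ M hℓ hA hℓM hg P').restrictAlong
          (mc_inclC (IsLocalRing.ResidueField A) h2)
          (heckeRed_inclC_isIntegral A ℓ p M hℓ hA hℓp hℓM h2) := by
    intro P'
    rw [Place.restrictAlong_congr hια _ (Fermat.Agent.F3T.inclBar_isIntegral h2)]
    exact hcompat P'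
  have hE' := Fermat.Agent.RRMod.isRRField_bar (p * r)
  have hbk : (heckeRed_betaTopC p r M h1 (IsLocalRing.ResidueField A)).toRingHom.IsIntegral :=
    isIntegral_of_finiteAlong (φ := heckeRed_betaTopC p r M h1 (IsLocalRing.ResidueField A))
      (heckeRed_finiteAlong (modularValSetup A ℓ p hℓ hA hℓp).hFk
        (modularValSetup A ℓ M hℓ hA hℓM).hFk _)
  have hFIι : FundamentalIdentityAlong Qb (Fermat.Agent.F3T.inclBar h1) hι :=
    fundIdK hE' (modularValSetup A ℓ M hℓ hA hℓM).hF _ hι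
  have hfinι : FiniteAlong Qb (Fermat.Agent.F3T.inclBar h1) :=
    heckeRed_finiteAlong hE' (modularValSetup A ℓ M hℓ hA hℓM).hF _
  have hdiv : ∀ n : ℕ, n ≠ 0 → ∀ x : JZero p, ∃ y : JZero p, n • y = x :=
    fun n hn x => Fermat.Agent.Div.jZero_divisible p n (Nat.pos_of_ne_zero hn) x
  exact heckeRed_stable (SE := modularValSetup A ℓ p hℓ hA hℓp)
    (SF := modularValSetup A ℓ M hℓ hA hℓM) (α := heckeAlphaBar Qb p r)
    (β := heckeBetaBar Qb p r) (ι := Fermat.Agent.F3T.inclBar h1)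
    (ak := mc_inclC (IsLocalRing.ResidueField A) h2)
    (bk := heckeRed_betaTopC p r M h1 (IsLocalRing.ResidueField A))
    (hα := hα) (hβ := hβ) (hι := hι)
    (hak := heckeRed_inclC_isIntegral A ℓ p M hℓ hA hℓp hℓM h2) hE' hbk hFIι hfinι
    (isReduction_redPlace A ℓ M hℓ hA hℓM hg).push hrE hcompat'
    (fun f hf => heckeRed_betaTop_mem A ℓ p r M hℓ hA hℓp hℓM h1 f hf)
    (fun f hf => heckeRed_betaTop_red A ℓ p r M hℓ hA hℓp hℓM h1 f hf)
    hdiv hr₀ hD hTD hD0

end Main

end Fermat.Agent.ES15
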