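/-
Cluster E' (Mazur, S15), seat S15-F (helper79): **the kernel of the reduction
`J₀(p)(ℚ̄) → J₀(p)(k)` at a place `A` over `ℓ ∤ p` is stable under the Hecke operators `T_r`,
`r ≠ ℓ`** (`HeckeRedStable p` of `E/S15/Interfaces.lean` for `p` prime).

Route: `E/S15/HeckeRedCore.lean` (abstract), `E/S15/HeckeRedMod.lean` (modular inputs),
`E/S15/HeckeRedMain.lean` (divisor form, through the top level `M = p r c`).
-/
import Mathlib
import Fermat.Agent.E.S15.HeckeRedMain

set_option autoImplicit false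
set_option linter.style.haveILetI false
set_option linter.unusedSectionVars false
set_option synthInstance.maxHeartbeats 400000

noncomputable section

open AlgebraicCurve ModularCurve HahnSeries Fermat.Agent.RR Fermat.Agent.Deuring Fermat.Agent.FF
  Fermat.Agent.RedTr Fermat.Agent.GaussInt

namespace Fermat.Agent.ES15

local notation "Qb" => AlgebraicClosure ℚ

section Abstract

variable {K E k Ek : Type*} [Field K] [Field E] [Algebra K E]
  [Field k] [Field Ek] [Algebra k Ek]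

/-- every nonzero element of the residue field is the reduction of a unit. -/
theorem heckeRed_exists_lift (S : ValSetup K E k Ek) {gk : Ek} (hgk : gk ≠ 0) :
    ∃ g : E, g ∈ S.Ov ∧ g⁻¹ ∈ S.Ov ∧ g ≠ 0 ∧ S.red g = gk := by
  obtain ⟨g', hg'⟩ := S.ρ_surj gk
  have hgmem : (g' : E) ∈ S.Ov := g'.2
  have hgred : S.red (g' : E) = gk := by
    rw [S.red_of_mem hgmem]
    exact hg'
  have hg0 : (g' : E) ≠ 0 := by
    intro h0
    apply hgk
    rw [← hgred, h0, S.red_zero]
  refine ⟨g', hgmem, ?_, hg0, hgred⟩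
  by_contra hcon
  exact hgk (hgred ▸ (S.red_eq_zero_iff hgmem hg0).mpr hcon)

/-- a divisor of degree `0` with principal reduction is linearly equivalent to a divisor with
reduction `0`. -/
theorem heckeRed_exists_rep_abs (S : ValSetup K E k Ek) {r₀ : Place K E → Place k Ek}
    (hr₀ : IsPush S r₀) (D₀ : Divisor.degZero (K := K) (F := E))
    (hprin : redDiv r₀ (D₀ : Divisor K E) ∈ Divisor.principal (K := k) (F := Ek)) :
    ∃ D : Divisor.degZero (K := K) (F := E),
      Pic0.mk D = Pic0.mk D₀ ∧ redDiv r₀ (D : Divisor K E) = 0 := by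
  obtain ⟨gk, hgk0, hgk⟩ := hprin
  obtain ⟨g, hgmem, hginv, hg0, hgred⟩ := heckeRed_exists_lift S hgk0
  have hdiv0 : divOf S.hF g ∈ Divisor.degZero (K := K) (F := E) := by
    rw [Divisor.mem_degZero, degree_divOf]
  refine ⟨D₀ - ⟨_, hdiv0⟩, ?_, ?_⟩
  · symm
    refine QuotientAddGroup.eq_iff_sub_mem.mpr ?_
    rw [AddSubgroup.mem_addSubgroupOf, sub_sub_cancel]
    exact ⟨g, hg0, fun P => divOf_apply S.hF g P⟩
  · rw [AddSubgroupClass.coe_sub, map_sub, heckeRed_redDiv_divOf hr₀ hgmem hginv hg0, hgred,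
      sub_eq_zero]
    ext Q
    rw [hgk Q, divOf_apply]

end Abstract

/-- a class with reduction `0` has a representative with reduction `0`. -/
theorem heckeRed_exists_rep (p : ℕ) [NeZero p] (A : ValuationSubring Qb) (ℓ : ℕ) (hℓ : ℓ.Prime)
    (hA : A.LiesOverPrime ℓ) (hℓp : ¬ ℓ ∣ p) (hin : ReductionInputsModL A p)
    (z : JZero p) (hz : reductionModL A p z = 0) :
    ∃ D : Divisor.degZero (K := Qb) (F := modularFunctionFieldBar p),
      Pic0.mk D = z ∧ redDiv (placeReductionModL hin)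
        (D : Divisor Qb (modularFunctionFieldBar p)) = 0 := by
  have hr₀ : IsPush (modularValSetup A ℓ p hℓ hA hℓp) (placeReductionModL hin) :=
    heckeRed_isPush_of_isPlaceReduction A ℓ p hℓ hA hℓp
      (isPlaceReductionModL_placeReductionModL hin)
  obtain ⟨D₀, rfl⟩ := Pic0.mk_surjective z
  rw [reductionModL_mk hin] at hz
  have hprin : redDiv (placeReductionModL hin)
      (D₀ : Divisor Qb (modularFunctionFieldBar p)) ∈
      Divisor.principal (K := IsLocalRing.ResidueField A)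
        (F := modularFunctionFieldFullC (IsLocalRing.ResidueField A) p) := by
    have := (QuotientAddGroup.eq_zero_iff _).mp hz
    rwa [AddSubgroup.mem_addSubgroupOf] at this
  exact heckeRed_exists_rep_abs (modularValSetup A ℓ p hℓ hA hℓp) hr₀ D₀ hprin

/-- **S15-F** at a place `A` over `ℓ ∤ p`, for a prime `r ≠ ℓ`. -/
theorem heckeRed_of_not_dvd (p : ℕ) [NeZero p] (A : ValuationSubring Qb) (ℓ : ℕ) (hℓ : ℓ.Prime)
    (hA : A.LiesOverPrime ℓ) (hℓp : ¬ ℓ ∣ p) (r : Nat.Primes) (hrℓ : (r : ℕ) ≠ ℓ)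
    (z : JZero p) (hz : reductionModL A p z = 0) :
    reductionModL A p (heckeOperatorBar p r z) = 0 := by
  classical
  haveI : NeZero (r : ℕ) := ⟨r.2.ne_zero⟩
  haveI : NeZero (heckeRedTop ℓ p r) := ⟨heckeRedTop_ne_zero ℓ p r⟩
  haveI : NeZero (p * (r : ℕ)) := ⟨Nat.mul_ne_zero (NeZero.ne p) (NeZero.ne (r : ℕ))⟩
  by_cases hin : ReductionInputsModL A p
  swap
  · rw [reductionModL_of_not hin]
    rfl
  have hℓM : ¬ ℓ ∣ heckeRedTop ℓ p r := heckeRedTop_not_dvd hℓ r.2 hℓp hrℓ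
  obtain ⟨hα, hβ, hP, hfin, hFI, hN⟩ := Fermat.Agent.HeckeInputs.hi_heckeInputsAlong_Qbar p (r : ℕ)
  haveI := hP
  rw [heckeOperatorBar_apply, heckeOperatorAlong_eq hα hβ hFI hfin hN]
  have hg := Fermat.Agent.GenusEq.genusFF_eq (heckeRedTop ℓ p r) (heckeRedTop_four_or_nine ℓ p r)
    ℓ hℓ hℓM A hA
  have hr₀ : IsPush (modularValSetup A ℓ p hℓ hA hℓp) (placeReductionModL hin) :=
    heckeRed_isPush_of_isPlaceReduction A ℓ p hℓ hA hℓp
      (isPlaceReductionModL_placeReductionModL hin)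
  obtain ⟨D, rfl, hD0⟩ := heckeRed_exists_rep p A ℓ hℓ hA hℓp hin z hz
  have hTD : Divisor.correspondence (heckeBetaBar Qb p (r : ℕ)) (heckeAlphaBar Qb p (r : ℕ))
      hβ hα (D : Divisor Qb (modularFunctionFieldBar p)) ∈
      Divisor.degZero (K := Qb) (F := modularFunctionFieldBar p) :=
    Divisor.correspondence_mem_degZero _ _ hβ hα hFI D.2
  have hmain := heckeRed_divisor p A ℓ hℓ hA hℓp (r : ℕ) (heckeRedTop ℓ p r) hℓM
    (heckeRedTop_dvd ℓ p r) (heckeRedTop_dvd' ℓ p r) hg hα hβ hr₀ D.2 hTD hD0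
  show reductionModL A p (Pic0.mk (Pic0.degZeroCorrespondence (heckeBetaBar Qb p (r : ℕ))
    (heckeAlphaBar Qb p (r : ℕ)) hβ hα hFI D)) = 0
  rw [reductionModL_mk hin]
  have hzero : reductionDegZeroAlong (placeReductionModL hin)
      (isPlaceReductionModL_placeReductionModL hin).1
      (Pic0.degZeroCorrespondence (heckeBetaBar Qb p (r : ℕ))
        (heckeAlphaBar Qb p (r : ℕ)) hβ hα hFI D) = 0 := by
    apply Subtype.ext
    rw [coe_reductionDegZeroAlong]
    exact hmain
  rw [hzero]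
  rfl

/-- **Seat S15-F**: `HeckeRedStable p` for a prime level `p`. -/
theorem heckeRedStable (p : ℕ) [NeZero p] (hp : p.Prime) : HeckeRedStable p := by
  intro ℓ hℓ hℓp A hA r hrℓ _ z hz
  have hℓp' : ¬ ℓ ∣ p := fun h => hℓp ((Nat.prime_dvd_prime_iff_eq hℓ hp).mp h)
  exact heckeRed_of_not_dvd p A ℓ hℓ hA hℓp' r hrℓ z hz

end Fermat.Agent.ES15
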