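/-
Cluster E' (Mazur, S15), seat S15-B (helper5): the UNCONDITIONAL cases of
`ModularCurve.ReductionInputsModL A N` (reduction data of `X₀(N)` at a place `A` over `ℓ ∤ N`):

* `reductionInputsModL_of_ne` : `ℓ ∉ {2, 3}`, every level `N` with `ℓ ∤ N`
  (genus equality: `GoodRed.genusFF_modular_eq`);
* `reductionInputsModL_of_four_or_nine` : every `ℓ ∤ N` when `4 ∣ N` or `9 ∣ N`
  (genus equality: `GenusEq.genusFF_eq`).
-/
import Mathlib
import Fermat.Agent.E.S15.RedInputs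
import Fermat.Agent.Lib.GoodRed.ModularGenus
import Fermat.Agent.Lib.GenusEq.Main

set_option autoImplicit false
set_option synthInstance.maxHeartbeats 400000

noncomputable section

namespace Fermat.Agent.ES15

open ModularCurve AlgebraicCurve

variable (A : ValuationSubring (AlgebraicClosure ℚ)) (ℓ N : ℕ) [NeZero N]

/-- **S15-B** at `ℓ ∉ {2, 3}`. -/
theorem reductionInputsModL_of_ne (hℓ : ℓ.Prime) (hA : A.LiesOverPrime ℓ) (hℓN : ¬ ℓ ∣ N)
    (h2 : ℓ ≠ 2) (h3 : ℓ ≠ 3) : ReductionInputsModL A N :=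
  reductionInputsModL_of_genusFF_eq A ℓ N hℓ hA hℓN
    (Fermat.Agent.GoodRed.genusFF_modular_eq N hℓ hA hℓN h2 h3)

/-- **S15-B** at levels divisible by `4` or by `9`, every `ℓ ∤ N`. -/
theorem reductionInputsModL_of_four_or_nine (hℓ : ℓ.Prime) (hA : A.LiesOverPrime ℓ)
    (hℓN : ¬ ℓ ∣ N) (h : 4 ∣ N ∨ 9 ∣ N) : ReductionInputsModL A N :=
  reductionInputsModL_of_genusFF_eq A ℓ N hℓ hA hℓN
    (Fermat.Agent.GenusEq.genusFF_eq N h ℓ hℓ hℓN A hA)

end Fermat.Agent.ES15
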