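/-
Cluster E' (Mazur, S15), seat S15-B (helper5), leaf by helper21: the reduction data
`ModularCurve.ReductionInputsModL A N` at a place `A` of `ℚ̄` over a prime `ℓ ∤ N` from ANY map of
places `r` with the push property `RedTr.IsPush` for the modular Gauss valuation
(`GaussInt.modularValSetup`) -- no genus equality needed.

Same proof as `reductionInputsModL_of_genusFF_eq` (`E/S15/RedInputs.lean`), with `r` and its push
property given instead of being produced by Deuring's reduction map.
-/
import Mathlib
import Fermat.Agent.E.S15.RedInputs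
import Fermat.Agent.Lib.RedTr.Defs

set_option autoImplicit false
set_option synthInstance.maxHeartbeats 400000

noncomputable section

namespace Fermat.Agent.ES15

open ModularCurve AlgebraicCurve HahnSeries Fermat.Agent.GaussInt Fermat.Agent.Deuring
  Fermat.Agent.RR

/-- **S15-B, push form**: a map of places with the push property for the modular Gauss valuation
gives the reduction data. -/
theorem reductionInputsModL_of_isPush
    (A : ValuationSubring (AlgebraicClosure ℚ)) (ℓ N : ℕ) [NeZero N]
    (hℓ : ℓ.Prime) (hA : A.LiesOverPrime ℓ) (hℓN : ¬ ℓ ∣ N)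
    (r : Place (AlgebraicClosure ℚ) (modularFunctionFieldBar N) →
      Place (IsLocalRing.ResidueField A)
        (modularFunctionFieldFullC (IsLocalRing.ResidueField A) N))
    (hpush : Fermat.Agent.RedTr.IsPush (modularValSetup A ℓ N hℓ hA hℓN) r) :
    ReductionInputsModL A N := by
  set S := modularValSetup A ℓ N hℓ hA hℓN with hS
  refine ⟨r, ⟨fun P => ?_, ?_⟩, ?_⟩
  · rw [S.hFk.deg_one, S.hF.deg_one]
  · intro y hy hyk hne D hD Q
    obtain ⟨hmem, hinv, hf0, hred⟩ := integral_unit A ℓ N hℓ hA hℓN y hy hne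
    have hDf : D = divOf S.hF (⟨coeffMap A.subtype y, hy⟩ : modularFunctionFieldBar N) := by
      ext P
      rw [hD P, divOf_apply]
    have hredeq : S.red (⟨coeffMap A.subtype y, hy⟩ : modularFunctionFieldBar N) =
        ⟨coeffMap (IsLocalRing.residue A) y, hyk⟩ := Subtype.ext hred
    rw [hDf, hpush _ hmem hinv hf0 Q, hredeq]
  · intro D hD
    obtain ⟨f, hf0, hDf⟩ := hD
    -- write `f = c · u`, `u` a unit of the Gauss ring, `u = Y₁ / Y₂`
    obtain ⟨c, hc0, hu, hu'⟩ := S.scale f hf0
    set u : modularFunctionFieldBar N :=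
      f * (algebraMap (AlgebraicClosure ℚ) (modularFunctionFieldBar N) c)⁻¹ with hu_def
    have hcF : algebraMap (AlgebraicClosure ℚ) (modularFunctionFieldBar N) c ≠ 0 :=
      (map_ne_zero (algebraMap (AlgebraicClosure ℚ) (modularFunctionFieldBar N))).mpr hc0
    have hu0 : u ≠ 0 := mul_ne_zero hf0 (inv_ne_zero hcF)
    have humem : (u : LaurentSeries (AlgebraicClosure ℚ)) ∈
        gaussSub A (modularFunctionFieldBar N) := hu
    obtain ⟨Y₁, Y₂, hY⟩ := humem
    have hY₂0 : emb A Y₂ ≠ 0 := hY.emb_ne_zero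
    have hures : S.red u ≠ 0 := S.red_ne_zero hu hu' hu0
    have hY₁red : red A Y₁ ≠ 0 := by
      intro h0
      apply hures
      apply Subtype.ext
      rw [coe_modularValSetup_red A ℓ N hℓ hA hℓN (f := u) ⟨Y₁, Y₂, hY⟩, gaussResFun_eq hY, h0,
        zero_div]
      rfl
    have hY₁0 : emb A Y₁ ≠ 0 := by
      intro h0
      have : Y₁ = 0 := emb_injective A (by rw [h0, map_zero])
      exact hY₁red (by rw [this, map_zero])
    -- the two integral principal divisors
    set f₁ : modularFunctionFieldBar N := ⟨emb A Y₁, hY.mem₁⟩ with hf₁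
    set f₂ : modularFunctionFieldBar N := ⟨emb A Y₂, hY.mem₂⟩ with hf₂
    have hf₁0 : f₁ ≠ 0 := fun h => hY₁0 (congrArg Subtype.val h)
    have hf₂0 : f₂ ≠ 0 := fun h => hY₂0 (congrArg Subtype.val h)
    have hrel : u * f₂ = f₁ := Subtype.ext hY.eq
    have hmemk : ∀ Y : LaurentSeries A, emb A Y ∈ modularFunctionFieldBar N →
        red A Y ∈ modularFunctionFieldFullC (IsLocalRing.ResidueField A) N := by
      intro Y hYm
      have := Fermat.Agent.GaussVal.gaussResFun_mem_fullC_of_isAlgClosed A ℓ N hℓ hA hℓN _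
        (emb_mem_gaussSub hYm)
      rwa [gaussResFun_emb hYm] at this
    have h₁ : divOf S.hF f₁ ∈ integralPrincipalDivisors A (IsLocalRing.residue A) N :=
      ⟨Y₁, hY.mem₁, hmemk Y₁ hY.mem₁, hY₁red, fun P => divOf_apply _ _ _⟩
    have h₂ : divOf S.hF f₂ ∈ integralPrincipalDivisors A (IsLocalRing.residue A) N :=
      ⟨Y₂, hY.mem₂, hmemk Y₂ hY.mem₂, hY.prim, fun P => divOf_apply _ _ _⟩
    have hD' : D = divOf S.hF f₁ - divOf S.hF f₂ := by
      ext P
      rw [hDf P, Finsupp.sub_apply, divOf_apply, divOf_apply]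
      have hfu : f = u * algebraMap (AlgebraicClosure ℚ) (modularFunctionFieldBar N) c := by
        rw [hu_def, inv_mul_cancel_right₀ hcF]
      have h1 : P.ord f = P.ord u := by
        rw [hfu, P.ord_mul hu0 hcF, Fermat.Agent.S24Res.ord_algebraMap, add_zero]
      have h2 : P.ord f₁ = P.ord u + P.ord f₂ := by
        rw [← hrel, P.ord_mul hu0 hf₂0]
      rw [h1, h2]
      ring
    rw [hD']
    exact AddSubgroup.sub_mem _ (AddSubgroup.subset_closure h₁) (AddSubgroup.subset_closure h₂)

end Fermat.Agent.ES15
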