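/-
Cluster E' (helper3): the frozen statement S15, in the template's shape, from the inputs of
`E/S15/Interfaces.lean` given for every prime level (helper13).  When the eight inputs are
theorems, `Fermat/Agent/S15.lean` is
`result := s15_frozen_of_inputs (fun p _ hp hp' => ⟨..⟩) hp hp' W hΔ Q ..`.
-/
import Fermat.Agent.E.S15.Assembly

set_option autoImplicit false

open WeierstrassCurve WeierstrassCurve.Affine

namespace Fermat.Agent.ES15

/-- the eight inputs of the assembly at the level `p`. -/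
structure S15Inputs (p : ℕ) [NeZero p] : Prop where
  cuspZero : CuspZeroData p
  cuspTorsion : CuspTorsion p
  redInputs : RedInputs p
  cuspReduction : CuspReduction p
  heckeRedStable : HeckeRedStable p
  zeroCompOrder : ZeroCompOrder p
  moduliPoint : ModuliPoint p
  descent : EisensteinDescent p

theorem s15At_of_s15Inputs {p : ℕ} [NeZero p] (hp : p.Prime)
    (hp' : p ∉ ({2, 3, 5, 7, 13} : Finset ℕ)) (h : S15Inputs p) : S15At p :=
  s15_of_inputs hp hp' h.cuspZero h.cuspTorsion h.redInputs h.cuspReduction h.heckeRedStable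
    h.zeroCompOrder h.moduliPoint h.descent

/-- the frozen statement S15 (binders as in the template) from the inputs. -/
theorem s15_frozen_of_inputs
    (hin : ∀ (p : ℕ) [NeZero p], p.Prime → p ∉ ({2, 3, 5, 7, 13} : Finset ℕ) → S15Inputs p)
    {p : ℕ} (hp : p.Prime) (hp' : p ∉ ({2, 3, 5, 7, 13} : Finset ℕ))
    (W : WeierstrassCurve ℤ) (hΔ : W.Δ ≠ 0)
    (Q : ((W.map (Int.castRingHom ℚ))⁄(AlgebraicClosure ℚ)).Point)
    (hQfix : ∀ σ : AlgebraicClosure ℚ ≃ₐ[ℚ] AlgebraicClosure ℚ, σ • Q = Q)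
    (hQord : addOrderOf Q = p)
    (h2Δ : (2 : ℤ) ∣ W.Δ) (h2c₄ : ¬ (2 : ℤ) ∣ W.c₄)
    (h2 : ∀ A : ValuationSubring (AlgebraicClosure ℚ), A.LiesOverPrime 2 → ¬ W.InZeroComponentAt A Q)
    (h3Δ : (3 : ℤ) ∣ W.Δ) (h3c₄ : ¬ (3 : ℤ) ∣ W.c₄)
    (h3 : ∀ A : ValuationSubring (AlgebraicClosure ℚ), A.LiesOverPrime 3 → ¬ W.InZeroComponentAt A Q)
    {ℓ : ℕ} (hℓ : ℓ.Prime) (hℓp : ℓ ≠ p) (hℓΔ : (ℓ : ℤ) ∣ W.Δ) (hℓc₄ : ¬ (ℓ : ℤ) ∣ W.c₄)
    (A : ValuationSubring (AlgebraicClosure ℚ)) (hA : A.LiesOverPrime ℓ) :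
    ¬ W.InZeroComponentAt A Q := by
  have : NeZero p := ⟨hp.ne_zero⟩
  exact s15At_of_s15Inputs hp hp' (hin p hp hp') W hΔ Q hQfix hQord h2Δ h2c₄ h2 h3Δ h3c₄ h3
    ℓ hℓ hℓp hℓΔ hℓc₄ A hA

end Fermat.Agent.ES15
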